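import Fermat.Agent.H23.Final3
import Fermat.Agent.H82.CuspDatum
import Fermat.Agent.H27.ESD.Interfaces

/-!
# P-ES / ES-D-BR (helper17): branch data of `j` in characteristic 0

For the function field `F_L = ℚ̄(X₀(N))` and `y = j` (`Fermat.Agent.H23.jBar N`):

* the ramification index of `j` at a place `v` is `1` unless `j(v) ∈ {0, 1728, ∞}`;
* it divides `3` over `j = 0`, divides `2` over `j = 1728`, and divides `N` over `j = ∞`.

Everything is read off from the landed P-GENUS library (analytic data at every point of the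
`j`-line + local counting).
-/

set_option autoImplicit false
set_option synthInstance.maxHeartbeats 400000

noncomputable section

open AlgebraicCurve IntermediateField
open scoped MatrixGroups

namespace Fermat.Agent.H17.ESD

open Fermat.Agent.H23 Fermat.Agent.H27.ESD

/-! ### `ramIdx` in terms of `ord` -/

section general

variable {K F : Type} [Field K] [Field F] [Algebra K F] [IsAlgClosed K] [CharZero K]

omit [IsAlgClosed K] [CharZero K] in
theorem ramIdx_of_ord_neg (v : Place K F) (y : F) (h : v.ord y < 0) :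
    ramIdx y v = (-(v.ord y)).toNat := by
  rw [ramIdx, if_pos h]

theorem ord_nonneg_of_ord_sub_pos (v : Place K F) (y : F) {a : K}
    (ha : 0 < v.ord (y - algebraMap K F a)) : 0 ≤ v.ord y := by
  by_contra h
  rw [not_le] at h
  refine not_pos_inv_pos v y ha ?_
  rw [v.ord_inv]
  omega

theorem ramIdx_of_ord_sub_pos (v : Place K F) (y : F) {a : K}
    (ha : 0 < v.ord (y - algebraMap K F a)) :
    ramIdx y v = (v.ord (y - algebraMap K F a)).toNat := by
  have h0 := ord_nonneg_of_ord_sub_pos v y ha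
  rw [ramIdx, if_neg (not_lt.mpr h0)]
  have hle : ∀ c : K, (v.ord (y - algebraMap K F c)).toNat ≤
      (v.ord (y - algebraMap K F a)).toNat := by
    intro c
    by_cases hc : c = a
    · rw [hc]
    · have : ¬ 0 < v.ord (y - algebraMap K F c) := fun h => not_pos_pos_of_ne v y hc h ha
      rw [Int.toNat_of_nonpos (not_lt.mp this)]
      exact Nat.zero_le _
  refine le_antisymm (ciSup_le hle) ?_
  exact le_ciSup (f := fun c : K => (v.ord (y - algebraMap K F c)).toNat)
    ⟨_, by rintro _ ⟨c, rfl⟩; exact hle c⟩ a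

end general

/-! ### orders of `j - a` at the places of `F_L` -/

section modular

variable (N : ℕ) [NeZero N]

local notation "Kbar" => AlgebraicClosure ℚ
set_option quotPrecheck false in
local notation "FN" => ↥(ModularCurve.modularFunctionFieldBar N)

theorem analyticStatement_holds : AnalyticStatement N :=
  analyticStatement_of_cusp N
    (Fermat.Agent.H82.analytic_cusp N Fermat.Agent.H33.merGerm_statement (Fermat.Agent.H44.core N))

theorem finite_cosets : Finite (SL(2, ℤ) ⧸ CongruenceSubgroup.Gamma0 N) := by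
  obtain ⟨hcard, -⟩ := Fermat.Agent.H85.cosetCombinatorics N
  exact Nat.finite_of_card_ne_zero (by rw [hcard]; exact (dedekindPsi_pos N).ne')

theorem finrank_eq_card :
    Module.finrank Kbar⟮jBar N⟯ FN = Nat.card (SL(2, ℤ) ⧸ CongruenceSubgroup.Gamma0 N) := by
  obtain ⟨htr, hfd, hle⟩ := degreeStatement_holds N
  obtain ⟨-, -, -, ⟨Ainf⟩⟩ := analyticStatement_holds N
  have := hfd
  exact le_antisymm hle (card_le_finrank_of_analyticDatum Ainf)

/-- the key divisibility: at a zero `v` of `y`, `ord_v y` divides `e₀` -/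
theorem ord_dvd_of_analyticDatum {y : FN} {g : SL(2, ℤ)} {e₀ : ℕ}
    (A : AnalyticDatum N y g e₀) (he : 0 < e₀) (hy : Transcendental Kbar y)
    (hyx : Kbar⟮y⟯ = Kbar⟮jBar N⟯) (v : Place Kbar FN) (hv : 0 < v.ord y) :
    v.ord y ∣ (e₀ : ℤ) := by
  classical
  have := finite_cosets N
  let _ : Fintype (SL(2, ℤ) ⧸ CongruenceSubgroup.Gamma0 N) := Fintype.ofFinite _
  obtain ⟨htr, hfd, hle⟩ := degreeStatement_holds N
  have hfiny : FiniteDimensional Kbar⟮y⟯ FN := by rw [hyx]; exact hfd
  obtain ⟨hdeg, hVfin, hsum⟩ := Fermat.Agent.H29.fundamentalIdentity Kbar FN y hy hfiny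
  have hsum' : ∑ᶠ v ∈ {v : Place Kbar FN | 0 < v.ord y}, v.ord y =
      (Fintype.card (A.toLocalDatum he).I : ℤ) := by
    rw [hsum, hyx, finrank_eq_card N, Nat.card_eq_fintype_card]
    rfl
  obtain ⟨hind, -⟩ := Fermat.Agent.H85.localCounting Kbar FN y (A.toLocalDatum he) hdeg hVfin hsum'
  obtain ⟨i, m, hm, hσ⟩ := hind v hv
  have hy0 : y ≠ 0 := by
    rintro rfl
    simp at hv
  have h1 := hσ y hy0
  rw [(A.toLocalDatum he).val_y i] at h1
  have h2 : ((e₀ : ℤ)) = (m : ℤ) * v.ord y := WithTop.coe_injective h1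
  exact ⟨m, by rw [h2]; ring⟩

theorem jBar_transcendental : Transcendental Kbar (jBar N) := (degreeStatement_holds N).1

/-- over a point `a ≠ 0, 1728` of the `j`-line, `j - a` has simple zeros -/
theorem ord_jBar_sub_eq_one (v : Place Kbar FN) {a : Kbar} (h0 : a ≠ 0) (h1 : a ≠ 1728)
    (hv : 0 < v.ord (jBar N - algebraMap Kbar FN a)) :
    v.ord (jBar N - algebraMap Kbar FN a) = 1 := by
  obtain ⟨hgen, -, -, -⟩ := analyticStatement_holds N
  obtain ⟨A⟩ := hgen a h0 h1
  have h := ord_dvd_of_analyticDatum N A one_pos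
    (transcendental_sub_const (jBar_transcendental N) a) (adjoin_sub_const _ _) v hv
  have h2 : v.ord (jBar N - algebraMap Kbar FN a) ∣ 1 := by simpa using h
  exact Int.eq_one_of_dvd_one hv.le h2

/-- over `j = 0` the orders divide `3` -/
theorem ord_jBar_dvd_three (v : Place Kbar FN) (hv : 0 < v.ord (jBar N)) :
    v.ord (jBar N) ∣ 3 := by
  obtain ⟨-, ⟨A⟩, -, -⟩ := analyticStatement_holds N
  have hv' : 0 < v.ord (jBar N - algebraMap Kbar FN 0) := by simpa using hv
  have h := ord_dvd_of_analyticDatum N A (by norm_num)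
    (transcendental_sub_const (jBar_transcendental N) 0) (adjoin_sub_const _ _) v hv'
  simpa using h

/-- over `j = 1728` the orders divide `2` -/
theorem ord_jBar_sub_dvd_two (v : Place Kbar FN)
    (hv : 0 < v.ord (jBar N - algebraMap Kbar FN 1728)) :
    v.ord (jBar N - algebraMap Kbar FN 1728) ∣ 2 := by
  obtain ⟨-, -, ⟨A⟩, -⟩ := analyticStatement_holds N
  have h := ord_dvd_of_analyticDatum N A (by norm_num)
    (transcendental_sub_const (jBar_transcendental N) 1728) (adjoin_sub_const _ _) v hv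
  simpa using h

/-- over `j = ∞` the pole orders divide `N` -/
theorem ord_jBar_inv_dvd (v : Place Kbar FN) (hv : 0 < v.ord (jBar N)⁻¹) :
    v.ord (jBar N)⁻¹ ∣ (N : ℤ) := by
  obtain ⟨-, -, -, ⟨A⟩⟩ := analyticStatement_holds N
  exact ord_dvd_of_analyticDatum N A (Nat.pos_of_ne_zero (NeZero.ne N))
    (transcendental_inv (jBar_transcendental N)) (adjoin_inv _) v hv

/-! ### the branch data in terms of `ramIdx` -/

/-- **ES-D-BR (j).**  Branch data of `j` on `X₀(N)` in characteristic 0. -/
def BranchJStatement : Prop :=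
  ∀ (N : ℕ) [NeZero N] (v : Place (AlgebraicClosure ℚ) ↥(ModularCurve.modularFunctionFieldBar N)),
    (1 ≤ ramIdx (jBar N) v) ∧
    (1 < ramIdx (jBar N) v →
      v.ord (jBar N) < 0 ∨ 0 < v.ord (jBar N) ∨
        0 < v.ord (jBar N - algebraMap (AlgebraicClosure ℚ) _ 1728)) ∧
    (v.ord (jBar N) < 0 → ramIdx (jBar N) v ∣ N) ∧
    (0 < v.ord (jBar N) → ramIdx (jBar N) v ∣ 3) ∧
    (0 < v.ord (jBar N - algebraMap (AlgebraicClosure ℚ) _ 1728) → ramIdx (jBar N) v ∣ 2)

end modular

theorem toNat_dvd_of_dvd {a : ℤ} {n : ℕ} (ha : 0 < a) (h : a ∣ (n : ℤ)) : a.toNat ∣ n := by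
  have h1 : ((a.toNat : ℕ) : ℤ) = a := Int.toNat_of_nonneg ha.le
  rw [← h1] at h
  exact Int.natCast_dvd_natCast.mp h

theorem branchJ : BranchJStatement := by
  intro N _ v
  have hdeg : ∀ w : Place (AlgebraicClosure ℚ) ↥(ModularCurve.modularFunctionFieldBar N),
      w.deg = 1 :=
    (Fermat.Agent.H29.fundamentalIdentity (AlgebraicClosure ℚ) _ (jBar N)
      (jBar_transcendental N) (degreeStatement_holds N).2.1).1
  have hneg : v.ord (jBar N) < 0 → ramIdx (jBar N) v ∣ N := by
    intro h
    rw [ramIdx_of_ord_neg v _ h]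
    have h1 : 0 < v.ord (jBar N)⁻¹ := by rw [v.ord_inv]; omega
    have h2 := ord_jBar_inv_dvd N v h1
    rw [v.ord_inv] at h2
    exact toNat_dvd_of_dvd (by omega) h2
  have h3 : 0 < v.ord (jBar N) → ramIdx (jBar N) v ∣ 3 := by
    intro h
    have h' : 0 < v.ord (jBar N - algebraMap (AlgebraicClosure ℚ) _ 0) := by simpa using h
    rw [ramIdx_of_ord_sub_pos v _ h']
    have h2 := ord_jBar_dvd_three N v h
    simp only [map_zero, sub_zero]
    exact toNat_dvd_of_dvd h (by exact_mod_cast h2)
  have h2 : 0 < v.ord (jBar N - algebraMap (AlgebraicClosure ℚ) _ 1728) →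
      ramIdx (jBar N) v ∣ 2 := by
    intro h
    rw [ramIdx_of_ord_sub_pos v _ h]
    exact toNat_dvd_of_dvd h (by exact_mod_cast ord_jBar_sub_dvd_two N v h)
  -- the point of the `j`-line below `v`
  have hpt := exists_point hdeg (jBar_transcendental N) v
  refine ⟨?_, ?_, hneg, h3, h2⟩
  · rcases hpt with h | ⟨a, ha⟩
    · have h' : v.ord (jBar N) < 0 := by rw [v.ord_inv] at h; omega
      rw [ramIdx_of_ord_neg v _ h']
      omega
    · rw [ramIdx_of_ord_sub_pos v _ ha]
      omega
  · intro hram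
    rcases hpt with h | ⟨a, ha⟩
    · left
      rw [v.ord_inv] at h; omega
    · by_cases h0 : a = 0
      · right; left
        subst h0
        simpa using ha
      · by_cases h1 : a = 1728
        · right; right
          subst h1
          exact ha
        · exfalso
          rw [ramIdx_of_ord_sub_pos v _ ha, ord_jBar_sub_eq_one N v h0 h1 ha] at hram
          simp at hram

end Fermat.Agent.H17.ESD

end
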