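import Fermat.Agent.H17.ESD.BranchT2
import Fermat.Agent.H7.ESD.TameJ

/-!
# P-ES / ES-D-BR2 (helper17): the tame branch datum of `t₂` at `ℓ = 3`

`tameBranchData_t2 : 2 ∣ N → ¬ 3 ∣ N → A.LiesOverPrime 3 → TameBranchData N A`
(helper7's consumer shape, `Fermat.Agent.H7.ESD.TameBranchData`): the function
`x = t₂ = Δ(q)/Δ(q²)`, branch values `c₁ = -64`, `c₂ = 0` (and `∞`), distinct modulo `3`.
-/

set_option autoImplicit false
set_option synthInstance.maxHeartbeats 400000
set_option maxHeartbeats 1600000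

noncomputable section

open AlgebraicCurve ModularCurve IntermediateField

namespace Fermat.Agent.H17.ESD

open Fermat.Agent.H27.ESD Fermat.Agent.H27 Fermat.Agent.H7.ESD

section kside

variable (k : Type) [Field k] [IsAlgClosed k] (N : ℕ) [NeZero N] (ℓ : ℕ) [Fact ℓ.Prime]
  [CharP k ℓ]

/-- `j̄` as an element of `F_k` -/
def jK : ↥(modularFunctionFieldFullC k N) := ⟨jqModC k, jqModC_mem_full k N⟩

/-- `t̄₂` as an element of `F_k` (`2 ≠ 0` in `k`, `2 ∣ N`) -/
def t2K (h2 : (2 : k) ≠ 0) (hN : 2 ∣ N) : ↥(modularFunctionFieldFullC k N) :=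
  ⟨t2S k, t2S_mem_fullC k h2 N hN⟩

omit [IsAlgClosed k] in
theorem t2K_rel (h2 : (2 : k) ≠ 0) (hN : 2 ∣ N) :
    jK k N * t2K k N h2 hN ^ 2 = (t2K k N h2 hN + 256) ^ 3 := by
  apply (algebraMap ↥(modularFunctionFieldFullC k N) (LaurentSeries k)).injective
  rw [map_mul, map_pow, map_pow, map_add, map_ofNat]
  exact t2S_identity k

/-- `t̄₂` is a separating element of finite degree of `F_k`, and
`[F_k : k(j̄)] = 3 [F_k : k(t̄₂)]`. -/
theorem t2K_explicit (hℓN : ¬ ℓ ∣ N) (hM : HasHeckeData k) (h2 : (2 : k) ≠ 0) (hN : 2 ∣ N) :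
    Transcendental k (t2K k N h2 hN) ∧
    FiniteDimensional (adjoin k {t2K k N h2 hN}) ↥(modularFunctionFieldFullC k N) ∧
    Algebra.IsSeparable (adjoin k {t2K k N h2 hN}) ↥(modularFunctionFieldFullC k N) ∧
    Module.finrank (adjoin k {jK k N}) ↥(modularFunctionFieldFullC k N) =
      3 * Module.finrank (adjoin k {t2K k N h2 hN}) ↥(modularFunctionFieldFullC k N) := by
  obtain ⟨htr, hfin, hsep⟩ := tg_ffModL_explicit k N ℓ hℓN hM
  have hrel := t2K_rel k N h2 hN
  have hmem : jK k N ∈ k⟮t2K k N h2 hN⟯ := t2_mem_adjoin h2 hrel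
  have hfin' : FiniteDimensional k⟮jK k N⟯ ↥(modularFunctionFieldFullC k N) := hfin
  have hsep' : Algebra.IsSeparable k⟮jK k N⟯ ↥(modularFunctionFieldFullC k N) := hsep
  exact ⟨pc_transcendental_of_mem hmem htr, pc_finiteDimensional_of_mem hmem,
    pc_isSeparable_of_mem hmem, t2_finrank h2 hrel htr⟩

end kside

section datum

variable (N : ℕ) [NeZero N] (A : ValuationSubring (AlgebraicClosure ℚ))

/-- **The tame branch datum of `t₂`** at `ℓ = 3`, `2 ∣ N`. -/
theorem tameBranchData_t2 (hN : 2 ∣ N) (h3N : ¬ 3 ∣ N) (hA : A.LiesOverPrime 3) :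
    TameBranchData N A := by
  have hℓ : Nat.Prime 3 := Nat.prime_three
  haveI : Fact (Nat.Prime 3) := ⟨hℓ⟩
  haveI : IsAlgClosed (IsLocalRing.ResidueField A) :=
    Fermat.Agent.H89.isAlgClosed_residueField A
  haveI : CharP (IsLocalRing.ResidueField A) 3 :=
    Fermat.Agent.H89.charP_residueField_of_liesOverPrime A 3 hA
  have hM : HasHeckeData (IsLocalRing.ResidueField A) :=
    Fermat.Agent.H67.hasHeckeData_of_complex Fermat.Agent.H17.hasHeckeData_complex _
  have h2 : (2 : IsLocalRing.ResidueField A) ≠ 0 := by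
    intro h
    have h' : ((2 : ℕ) : IsLocalRing.ResidueField A) = 0 := by exact_mod_cast h
    have := (CharP.cast_eq_zero_iff (IsLocalRing.ResidueField A) 3 2).mp h'
    omega
  have e1 : coeffMap A.subtype (t2S A) = t2S (AlgebraicClosure ℚ) := coeffMap_t2S _
  have hX : coeffMap A.subtype (t2S A) ∈ modularFunctionFieldBar N := by
    rw [e1]
    exact t2S_mem_bar N hN
  have ex : (⟨_, hX⟩ : ↥(modularFunctionFieldBar N)) = t2Bar N hN := Subtype.ext e1
  have e2 : coeffMap (IsLocalRing.residue A) (t2S A) = t2S (IsLocalRing.ResidueField A) :=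
    coeffMap_t2S _
  have hXk : coeffMap (IsLocalRing.residue A) (t2S A) ∈
      modularFunctionFieldFullC (IsLocalRing.ResidueField A) N := by
    rw [e2]
    exact t2S_mem_fullC _ h2 N hN
  have exk : (⟨_, hXk⟩ : ↥(modularFunctionFieldFullC (IsLocalRing.ResidueField A) N)) =
      t2K (IsLocalRing.ResidueField A) N h2 hN := Subtype.ext e2
  obtain ⟨htr, hfin, hsep, hdegk⟩ :=
    t2K_explicit (IsLocalRing.ResidueField A) N 3 h3N hM h2 hN
  have hdeg := tg_dedekindPsi_le_finrank (IsLocalRing.ResidueField A) N 3 h3N hM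
  -- the residues of the branch values
  have h64 : IsUnit ((-64 : ℤ) : A) := by
    refine Fermat.Agent.H18.rv_isUnit_intCast A hℓ hA ?_
    intro hdvd
    have h2' : ((3 : ℕ) : ℤ) ∣ 64 := by
      have := (dvd_neg (a := ((3 : ℕ) : ℤ)) (b := 64)).mpr
      exact (dvd_neg).mp hdvd
    norm_num at h2'
  have hres : IsLocalRing.residue A ((-64 : ℤ) : A) ≠ IsLocalRing.residue A (0 : A) := by
    rw [map_zero]
    intro h0
    have h3 := (IsLocalRing.residue_eq_zero_iff _).mp h0
    exact (IsLocalRing.mem_maximalIdeal _).mp h3 h64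
  refine ⟨t2S A, hX, hXk, ((-64 : ℤ) : A), 0, hres, ?_, ?_, ?_, ?_, ?_, ?_, ?_⟩
  · rw [ex]
    exact t2Bar_transcendental N hN
  · rw [ex]
    exact t2Bar_finiteDimensional N hN
  · rw [exk]
    exact htr
  · rw [exk]
    exact hfin
  · rw [exk]
    exact hsep
  · rw [ex, exk]
    have h5 := t2Bar_finrank N hN
    rw [tg_finrank_jBar] at h5
    have h6 : dedekindPsi N ≤ 3 * Module.finrank
        (adjoin (IsLocalRing.ResidueField A) {t2K (IsLocalRing.ResidueField A) N h2 hN})
        ↥(modularFunctionFieldFullC (IsLocalRing.ResidueField A) N) := by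
      rw [← hdegk]
      exact hdeg
    omega
  · intro v hv
    rw [ex] at hv ⊢
    obtain ⟨-, hb, -⟩ := branchT2 N hN v
    have e3 : (((-64 : ℤ) : A) : AlgebraicClosure ℚ) = -64 := by
      push_cast
      rfl
    have e4 : ((0 : A) : AlgebraicClosure ℚ) = 0 := rfl
    rw [e3, e4, map_zero, sub_zero]
    rcases hb hv with h | h | h
    · exact Or.inl h
    · exact Or.inr (Or.inr h)
    · exact Or.inr (Or.inl h)

end datum

end Fermat.Agent.H17.ESD

end
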