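import Fermat.Agent.H17.ESD.PsiTwo
import Fermat.Agent.H5.IgusaSide
import Fermat.Agent.H17.HeckeDataComplex
import Fermat.Prelude.Def_ModularCurve_ArithmeticGalois

/-!
# P-ES / ES-D-BR2 (helper17): `t₂ = Δ(q)/Δ(q²)` lies in the function field of `X₀(N)`, `2 ∣ N`

* `unitOne_two_mem`, `t2S_mem_fullC` : over every field `k` with `2 ≠ 0`,
  `t2S k ∈ modularFunctionFieldFullC k N` for `2 ∣ N`;
* `t2S_mem_bar` : `t2S ℚ̄ ∈ modularFunctionFieldBar N` for `2 ∣ N`.
-/

set_option autoImplicit false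
set_option maxHeartbeats 400000

noncomputable section

open ModularCurve Fermat.Agent.H27

namespace Fermat.Agent.H17.ESD

theorem isPrimitiveRoot_neg_one_of_two_ne_zero (k : Type*) [Field k] (h2 : (2 : k) ≠ 0) :
    IsPrimitiveRoot (((-1 : kˣ) : kˣ) : k) 2 := by
  have hc : ringChar k ≠ 2 := by
    intro h
    apply h2
    have := ringChar.Nat.cast_ringChar (R := k)
    rw [h] at this
    exact_mod_cast this
  have := IsPrimitiveRoot.neg_one (R := k) (ringChar k) hc
  simpa using this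

/-- the unit `2^12 Δ(q²)/Δ(q)` lies in `k(j(q), j(q²))` -/
theorem unitOne_two_mem (k : Type) [Field k] (h2 : (2 : k) ≠ 0) (N : ℕ) [NeZero N]
    (hN : 2 ∣ N) : unitOne k 2 ∈ modularFunctionFieldFullC k N := by
  obtain ⟨D⟩ := Fermat.Agent.H67.hasHeckeData_of_complex Fermat.Agent.H17.hasHeckeData_complex k 2
    Nat.prime_two (-1) (isPrimitiveRoot_neg_one_of_two_ne_zero k h2)
  have hx : jLev k 1 ∈ modularFunctionFieldFullC k N := by
    rw [jLev_one]
    exact jqModC_mem_full k N
  have hy : jLev k (1 * 2) ∈ modularFunctionFieldFullC k N := by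
    rw [one_mul, jLev_eq]
    exact jqModCd_mem_full k N hN
  have h := Fermat.Agent.H5.unitLev_mem_of_jLev_mem k (modularFunctionFieldFullC k N) 1 one_ne_zero 2
    Nat.prime_two (-1) D hx hy
  rwa [unitLev_eq, qExpand_one_apply] at h

theorem t2S_eq_div (k : Type) [Field k] (h2 : (2 : k) ≠ 0) :
    t2S k = 4096 * (unitOne k 2)⁻¹ := by
  have h := t2S_mul_unitOne k
  have hne : unitOne k 2 ≠ 0 := by
    intro h0
    rw [h0, mul_zero] at h
    have h4096 : (4096 : LaurentSeries k) = HahnSeries.C (4096 : k) := by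
      rw [map_ofNat]
    rw [h4096] at h
    have h3 : (4096 : k) ≠ 0 := by
      have : (4096 : k) = 2 ^ 12 := by norm_num
      rw [this]
      exact pow_ne_zero 12 h2
    exact HahnSeries.C_ne_zero h3 h.symm
  rw [← h, mul_assoc, mul_inv_cancel₀ hne, mul_one]

/-- **membership** of `t₂` in the function field of `X₀(N)` over any field with `2 ≠ 0`. -/
theorem t2S_mem_fullC (k : Type) [Field k] (h2 : (2 : k) ≠ 0) (N : ℕ) [NeZero N]
    (hN : 2 ∣ N) : t2S k ∈ modularFunctionFieldFullC k N := by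
  rw [t2S_eq_div k h2]
  refine mul_mem ?_ (inv_mem (unitOne_two_mem k h2 N hN))
  have h4096 : (4096 : LaurentSeries k) = algebraMap k (LaurentSeries k) 4096 := by
    rw [map_ofNat]
  rw [h4096]
  exact (modularFunctionFieldFullC k N).algebraMap_mem _

/-- **membership** of `t₂` in `F_L = ℚ̄(X₀(N))`. -/
theorem t2S_mem_bar (N : ℕ) [NeZero N] (hN : 2 ∣ N) :
    t2S (AlgebraicClosure ℚ) ∈ modularFunctionFieldBar N := by
  have h := t2S_mem_fullC ℚ (by norm_num) N hN
  rw [modularFunctionFieldFullC_rat] at h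
  have h2 := coeffEmb_mem_laurentBaseChange (AlgebraicClosure ℚ) h
  rw [coeffEmb, coeffMap_t2S] at h2
  exact h2

end Fermat.Agent.H17.ESD

end
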