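import Fermat.Agent.H17.ESD.PlaceCalc
import Fermat.Agent.H17.ESD.T2Member
import Fermat.Agent.H17.ESD.BranchJ
import Fermat.Agent.H2.KLBRPlace

/-!
# P-ES / ES-D-BR2 (helper17): branch data of `t₂ = Δ(q)/Δ(q²)` on `X₀(N)`, `2 ∣ N`

Generic part (`F / K` any function field, `x t : F` with `x t² = (t + 256)³`, `2 ≠ 0` in `K`):

* `t2_ne_zero`, `t2_mem_adjoin` (`x ∈ K(t)`), `t2_ord_of_zero`, `t2_ord_of_pole`,
  `t2_ord_of_unit`, `t2_finrank` (`[F : K(x)] = 3 [F : K(t)]`);
* `t2_branch` (characteristic 0): if `x` is unramified outside `0, 1728, ∞` with indices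
  dividing `3, 2, N`, then `t` is unramified outside `0, -64, ∞`, with `2 e ∣ N` at the zeros,
  `e ∣ 2` over `-64` and `e ∣ N` at the poles.

Modular part: `t2Bar N : F_L`, `t2Bar_rel`, `t2Bar_transcendental`, `t2Bar_finrank`,
`branchT2 : BranchT2Statement`.
-/

set_option autoImplicit false
set_option synthInstance.maxHeartbeats 400000
set_option maxHeartbeats 400000

noncomputable section

open AlgebraicCurve IntermediateField

namespace Fermat.Agent.H17.ESD

open Fermat.Agent.H23 Fermat.Agent.H27.ESD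

section rel

variable {K F : Type} [Field K] [Field F] [Algebra K F]

theorem t2_add_eq_sub (K : Type) {F : Type} [Field K] [Field F] [Algebra K F] (t : F)
    (n : ℕ) [n.AtLeastTwo] :
    t + (OfNat.ofNat n : F) = t - algebraMap K F (-(OfNat.ofNat n : K)) := by
  rw [map_neg, sub_neg_eq_add, map_ofNat]

theorem t2_sub_eq_sub (K : Type) {F : Type} [Field K] [Field F] [Algebra K F] (t : F)
    (n : ℕ) [n.AtLeastTwo] :
    t - (OfNat.ofNat n : F) = t - algebraMap K F ((OfNat.ofNat n : K)) := by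
  rw [map_ofNat]

theorem t2_two_ne_zero (h2 : (2 : K) ≠ 0) : (2 : F) ≠ 0 := by
  intro h
  apply h2
  have : algebraMap K F 2 = 0 := by rw [map_ofNat]; exact h
  exact (map_eq_zero _).mp this

theorem t2_ne_zero {x t : F} (h2 : (2 : K) ≠ 0) (hrel : x * t ^ 2 = (t + 256) ^ 3) :
    t ≠ 0 := by
  rintro rfl
  have h256 : (256 : F) = 2 ^ 8 := by norm_num
  rw [zero_pow (by norm_num), mul_zero, zero_add, h256] at hrel
  exact pow_ne_zero 3 (pow_ne_zero 8 (t2_two_ne_zero (F := F) h2)) hrel.symm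

theorem t2_mem_adjoin {x t : F} (h2 : (2 : K) ≠ 0) (hrel : x * t ^ 2 = (t + 256) ^ 3) :
    x ∈ K⟮t⟯ := by
  have ht := t2_ne_zero h2 hrel
  have hx : x = (t + 256) ^ 3 / t ^ 2 := by
    rw [eq_div_iff (pow_ne_zero 2 ht)]
    exact hrel
  rw [hx]
  have htm : t ∈ K⟮t⟯ := mem_adjoin_simple_self K t
  have h256 : (256 : F) ∈ K⟮t⟯ := by
    have : (256 : F) = algebraMap K F 256 := (map_ofNat _ _).symm
    rw [this]
    exact K⟮t⟯.algebraMap_mem _
  exact div_mem (pow_mem (add_mem htm h256) 3) (pow_mem htm 2)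

theorem t2_256_ne_zero (h2 : (2 : K) ≠ 0) : (0 : K) ≠ -256 := by
  have h256 : (256 : K) = 2 ^ 8 := by norm_num
  rw [h256]
  exact (neg_ne_zero.mpr (pow_ne_zero 8 h2)).symm

theorem t2_ord_of_zero (v : Place K F) {x t : F} (h2 : (2 : K) ≠ 0)
    (hrel : x * t ^ 2 = (t + 256) ^ 3) (h : 0 < v.ord t) :
    v.ord x = -(((2 : ℕ) : ℤ) * v.ord t) := by
  have ht := t2_ne_zero h2 hrel
  have h' : 0 < v.ord (t - algebraMap K F 0) := by rwa [map_zero, sub_zero]
  obtain ⟨hne, h0⟩ := pc_ord_sub_const_eq_zero v t (t2_256_ne_zero h2) h'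
  rw [t2_add_eq_sub K] at hrel
  have hx : x ≠ 0 := by
    rintro rfl
    rw [zero_mul] at hrel
    exact pow_ne_zero 3 hne hrel.symm
  have h3 := congrArg v.ord hrel
  rw [v.ord_mul hx (pow_ne_zero 2 ht), pc_ord_pow, pc_ord_pow, h0] at h3
  push_cast at h3 ⊢
  linarith

theorem t2_ord_of_pole (v : Place K F) {x t : F} (h2 : (2 : K) ≠ 0)
    (hrel : x * t ^ 2 = (t + 256) ^ 3) (h : v.ord t < 0) :
    v.ord x = ((1 : ℕ) : ℤ) * v.ord t := by
  have ht := t2_ne_zero h2 hrel
  obtain ⟨hne, h0⟩ := pc_ord_sub_const_of_pole v t (-256) h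
  rw [t2_add_eq_sub K] at hrel
  have hx : x ≠ 0 := by
    rintro rfl
    rw [zero_mul] at hrel
    exact pow_ne_zero 3 hne hrel.symm
  have h3 := congrArg v.ord hrel
  rw [v.ord_mul hx (pow_ne_zero 2 ht), pc_ord_pow, pc_ord_pow, h0] at h3
  push_cast at h3 ⊢
  linarith

theorem t2_ord_of_unit (v : Place K F) {x t : F} (h2 : (2 : K) ≠ 0)
    (hrel : x * t ^ 2 = (t + 256) ^ 3) (h : v.ord t = 0) : 0 ≤ v.ord x := by
  have ht := t2_ne_zero h2 hrel
  have h1 := pc_ord_sub_const_nonneg v t (-256) h.ge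
  rw [t2_add_eq_sub K] at hrel
  by_cases hx : x = 0
  · rw [hx, v.ord_zero]
  · have h3 := congrArg v.ord hrel
    rw [v.ord_mul hx (pow_ne_zero 2 ht), pc_ord_pow, pc_ord_pow, h] at h3
    generalize v.ord (t - algebraMap K F (-256)) = e at h1 h3
    push_cast at h3
    linarith

/-- **degree**: `[F : K(x)] = 3 [F : K(t)]` -/
theorem t2_finrank [IsAlgClosed K] {x t : F} (h2 : (2 : K) ≠ 0)
    (hrel : x * t ^ 2 = (t + 256) ^ 3) (hx : Transcendental K x)
    [FiniteDimensional K⟮x⟯ F] [Algebra.IsSeparable K⟮x⟯ F] :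
    Module.finrank K⟮x⟯ F = 3 * Module.finrank K⟮t⟯ F := by
  have hmem : x ∈ K⟮t⟯ := t2_mem_adjoin h2 hrel
  have := pc_finiteDimensional_of_mem hmem
  have := pc_isSeparable_of_mem hmem
  exact pc_finrank_mul x t hx (pc_transcendental_of_mem hmem hx) 2 1 (by norm_num) (by norm_num)
    (fun v hv => t2_ord_of_zero v h2 hrel hv) (fun v hv => t2_ord_of_pole v h2 hrel hv)
    (fun v hv => t2_ord_of_unit v h2 hrel hv)

end rel

/-! ### branch data (characteristic 0) -/

section branch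

open Polynomial

variable {K F : Type} [Field K] [Field F] [Algebra K F] [CharZero K]

/-- branch data of `x = j` in `ord` form: simple zeros of `x - a` for `a ≠ 0, 1728`, orders
dividing `3` over `0`, `2` over `1728`, `N` over `∞`. -/
structure JBranchOrd (K : Type) {F : Type} [Field K] [Field F] [Algebra K F] (x : F) (N : ℕ) :
    Prop where
  gen : ∀ (v : Place K F) (a : K), a ≠ 0 → a ≠ 1728 → 0 < v.ord (x - algebraMap K F a) →
    v.ord (x - algebraMap K F a) = 1
  zero : ∀ v : Place K F, 0 < v.ord x → v.ord x ∣ 3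
  e1728 : ∀ v : Place K F, 0 < v.ord (x - algebraMap K F 1728) →
    v.ord (x - algebraMap K F 1728) ∣ 2
  inf : ∀ v : Place K F, 0 < v.ord x⁻¹ → v.ord x⁻¹ ∣ (N : ℤ)

theorem t2_two_ne_zero' : (2 : K) ≠ 0 := two_ne_zero

/-- generic point: `c ∉ {0, -64, -256, 512}` -/
theorem t2_branch_generic {x t : F} {N : ℕ} (hJ : JBranchOrd K x N)
    (hrel : x * t ^ 2 = (t + 256) ^ 3) (v : Place K F) (c : K) (hc0 : c ≠ 0) (hc1 : c ≠ -64)
    (hc2 : c ≠ -256) (hc3 : c ≠ 512) (h : 0 < v.ord (t - algebraMap K F c)) :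
    v.ord (t - algebraMap K F c) = 1 := by
  have hc2' : c + 256 ≠ 0 := fun h0 => hc2 (by linear_combination h0)
  have hc3' : c - 512 ≠ 0 := sub_ne_zero.mpr hc3
  have hc1' : c + 64 ≠ 0 := fun h0 => hc1 (by linear_combination h0)
  set a : K := (c + 256) ^ 3 / c ^ 2 with ha
  have ha0 : a ≠ 0 := div_ne_zero (pow_ne_zero 3 hc2') (pow_ne_zero 2 hc0)
  have ha1 : a ≠ 1728 := by
    intro h1
    rw [ha, div_eq_iff (pow_ne_zero 2 hc0)] at h1
    have h2 : (c + 64) * (c - 512) ^ 2 = 0 := by linear_combination h1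
    exact mul_ne_zero hc1' (pow_ne_zero 2 hc3') h2
  let g : K[X] := C (c ^ 2) * X ^ 2 - C (65536 * (3 * c + 256)) * X - C (16777216 * c)
  have hg : g.eval c ≠ 0 := by
    have e : g.eval c = c * (c + 256) ^ 2 * (c - 512) := by
      simp only [g, eval_sub, eval_mul, eval_C, eval_pow, eval_X]
      ring
    rw [e]
    exact mul_ne_zero (mul_ne_zero hc0 (pow_ne_zero 2 hc2')) hc3'
  obtain ⟨hHne, hH0⟩ := Fermat.Agent.H2.klbr_ord_aeval_eq_zero v h g hg
  obtain ⟨htne, ht0⟩ := pc_ord_sub_const_eq_zero v t (d := 0) hc0 h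
  rw [map_zero, sub_zero] at htne ht0
  have key : (x - algebraMap K F a) * t ^ 2 * algebraMap K F (c ^ 2) =
      (t - algebraMap K F c) * aeval t g := by
    have e1 : algebraMap K F a * algebraMap K F (c ^ 2) = (algebraMap K F c + 256) ^ 3 := by
      rw [← map_mul, ha, div_mul_cancel₀ _ (pow_ne_zero 2 hc0), map_pow, map_add, map_ofNat]
    have e2 : aeval t g = algebraMap K F c ^ 2 * t ^ 2 -
        65536 * (3 * algebraMap K F c + 256) * t - 16777216 * algebraMap K F c := by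
      simp only [g, map_sub, map_mul, aeval_C, map_pow, aeval_X, map_add, map_ofNat]
    have e3 : (x - algebraMap K F a) * t ^ 2 * algebraMap K F (c ^ 2) =
        x * t ^ 2 * algebraMap K F (c ^ 2) -
          (algebraMap K F a * algebraMap K F (c ^ 2)) * t ^ 2 := by ring
    rw [e2, e3, e1, hrel, map_pow]
    ring
  have htc : t - algebraMap K F c ≠ 0 := pc_ne_zero_of_ord_ne v h.ne'
  have hxa : x - algebraMap K F a ≠ 0 := by
    intro h0
    rw [h0, zero_mul, zero_mul] at key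
    exact mul_ne_zero htc hHne key.symm
  have hcc : algebraMap K F (c ^ 2) ≠ 0 := by
    rw [Ne, map_eq_zero]
    exact pow_ne_zero 2 hc0
  have h3 := congrArg v.ord key
  rw [v.ord_mul (mul_ne_zero hxa (pow_ne_zero 2 htne)) hcc,
    v.ord_mul hxa (pow_ne_zero 2 htne), pc_ord_pow, ht0, ord_algebraMap,
    v.ord_mul htc hHne, hH0] at h3
  have h4 : 0 < v.ord (x - algebraMap K F a) := by linarith
  have h5 := hJ.gen v a ha0 ha1 h4
  linarith

/-- the point `t = -256` (over `j = 0`, index `3` for `j`) -/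
theorem t2_branch_256 {x t : F} {N : ℕ} (hJ : JBranchOrd K x N)
    (hrel : x * t ^ 2 = (t + 256) ^ 3) (v : Place K F)
    (h : 0 < v.ord (t - algebraMap K F (-256))) :
    v.ord (t - algebraMap K F (-256)) = 1 := by
  obtain ⟨htne, ht0⟩ := pc_ord_sub_const_eq_zero v t (c := -256) (d := 0)
    (by norm_num) h
  rw [map_zero, sub_zero] at htne ht0
  rw [t2_add_eq_sub K] at hrel
  have htc : t - algebraMap K F (-256) ≠ 0 := pc_ne_zero_of_ord_ne v h.ne'
  have hx : x ≠ 0 := by
    rintro rfl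
    rw [zero_mul] at hrel
    exact pow_ne_zero 3 htc hrel.symm
  have h3 := congrArg v.ord hrel
  rw [v.ord_mul hx (pow_ne_zero 2 htne), pc_ord_pow, pc_ord_pow, ht0] at h3
  generalize v.ord (t - algebraMap K F (-256)) = e at h h3 ⊢
  push_cast at h3
  have h4 : 0 < v.ord x := by linarith
  have h5 := hJ.zero v h4
  have h6 : v.ord x = 3 * e := by linarith
  rw [h6] at h5
  have h7 : e ∣ 1 := by
    obtain ⟨m, hm⟩ := h5
    exact ⟨m, by linarith⟩
  exact Int.eq_one_of_dvd_one h.le h7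

theorem t2_rel_1728 {x t : F} (hrel : x * t ^ 2 = (t + 256) ^ 3) :
    (x - algebraMap K F 1728) * t ^ 2 =
      (t - algebraMap K F (-64)) * (t - algebraMap K F 512) ^ 2 := by
  have e : (x - algebraMap K F 1728) * t ^ 2 = x * t ^ 2 - algebraMap K F 1728 * t ^ 2 := by
    ring
  rw [e, hrel, map_neg, map_ofNat, map_ofNat, map_ofNat]
  ring

/-- the point `t = 512` (over `j = 1728`, index `2` for `j`) -/
theorem t2_branch_512 {x t : F} {N : ℕ} (hJ : JBranchOrd K x N)
    (hrel : x * t ^ 2 = (t + 256) ^ 3) (v : Place K F)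
    (h : 0 < v.ord (t - algebraMap K F 512)) :
    v.ord (t - algebraMap K F 512) = 1 := by
  obtain ⟨htne, ht0⟩ := pc_ord_sub_const_eq_zero v t (c := 512) (d := 0)
    (by norm_num) h
  rw [map_zero, sub_zero] at htne ht0
  obtain ⟨hsne, hs0⟩ := pc_ord_sub_const_eq_zero v t (c := 512) (d := -64)
    (by norm_num) h
  have hrel' := t2_rel_1728 (K := K) hrel
  have htc : t - algebraMap K F 512 ≠ 0 := pc_ne_zero_of_ord_ne v h.ne'
  have hx : x - algebraMap K F 1728 ≠ 0 := by
    intro h0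
    rw [h0, zero_mul] at hrel'
    exact mul_ne_zero hsne (pow_ne_zero 2 htc) hrel'.symm
  have h3 := congrArg v.ord hrel'
  rw [v.ord_mul hx (pow_ne_zero 2 htne), pc_ord_pow, ht0,
    v.ord_mul hsne (pow_ne_zero 2 htc), hs0, pc_ord_pow] at h3
  have h3' : v.ord (x - algebraMap K F 1728) = 2 * v.ord (t - algebraMap K F 512) := by
    push_cast at h3
    linarith
  have h4 : 0 < v.ord (x - algebraMap K F 1728) := by
    rw [h3']
    linarith
  have h5 := hJ.e1728 v h4
  rw [h3'] at h5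
  have h7 : v.ord (t - algebraMap K F 512) ∣ 1 := by
    obtain ⟨m, hm⟩ := h5
    exact ⟨m, by linarith⟩
  exact Int.eq_one_of_dvd_one h.le h7

/-- the point `t = -64` (over `j = 1728`, unramified for `j`): index dividing `2` -/
theorem t2_branch_64 {x t : F} {N : ℕ} (hJ : JBranchOrd K x N)
    (hrel : x * t ^ 2 = (t + 256) ^ 3) (v : Place K F)
    (h : 0 < v.ord (t - algebraMap K F (-64))) :
    v.ord (t - algebraMap K F (-64)) ∣ 2 := by
  obtain ⟨htne, ht0⟩ := pc_ord_sub_const_eq_zero v t (c := -64) (d := 0)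
    (by norm_num) h
  rw [map_zero, sub_zero] at htne ht0
  obtain ⟨hsne, hs0⟩ := pc_ord_sub_const_eq_zero v t (c := -64) (d := 512)
    (by norm_num) h
  have hrel' := t2_rel_1728 (K := K) hrel
  have htc : t - algebraMap K F (-64) ≠ 0 := pc_ne_zero_of_ord_ne v h.ne'
  have hx : x - algebraMap K F 1728 ≠ 0 := by
    intro h0
    rw [h0, zero_mul] at hrel'
    exact mul_ne_zero htc (pow_ne_zero 2 hsne) hrel'.symm
  have h3 := congrArg v.ord hrel'
  rw [v.ord_mul hx (pow_ne_zero 2 htne), pc_ord_pow, ht0,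
    v.ord_mul htc (pow_ne_zero 2 hsne), pc_ord_pow, hs0] at h3
  have h3' : v.ord (x - algebraMap K F 1728) = v.ord (t - algebraMap K F (-64)) := by
    simp only [Nat.cast_ofNat, mul_zero, add_zero] at h3
    exact h3
  have h4 : 0 < v.ord (x - algebraMap K F 1728) := by
    rw [h3']
    exact h
  have h5 := hJ.e1728 v h4
  rwa [h3'] at h5

/-- the zeros of `t` (cusps over `j = ∞` of width `2 e`) -/
theorem t2_branch_zero {x t : F} {N : ℕ} (hJ : JBranchOrd K x N)
    (hrel : x * t ^ 2 = (t + 256) ^ 3) (v : Place K F) (h : 0 < v.ord t) :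
    2 * v.ord t ∣ (N : ℤ) := by
  have h1 := t2_ord_of_zero v (t2_two_ne_zero' (K := K)) hrel h
  have h2 : 0 < v.ord x⁻¹ := by
    rw [v.ord_inv, h1]
    push_cast
    linarith
  have h3 := hJ.inf v h2
  rw [v.ord_inv, h1] at h3
  push_cast at h3
  rwa [neg_neg] at h3

/-- the poles of `t` (cusps over `j = ∞` of width `e`) -/
theorem t2_branch_pole {x t : F} {N : ℕ} (hJ : JBranchOrd K x N)
    (hrel : x * t ^ 2 = (t + 256) ^ 3) (v : Place K F) (h : v.ord t < 0) :
    v.ord t⁻¹ ∣ (N : ℤ) := by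
  have h1 := t2_ord_of_pole v (t2_two_ne_zero' (K := K)) hrel h
  have h2 : 0 < v.ord x⁻¹ := by
    rw [v.ord_inv, h1]
    push_cast
    linarith
  have h3 := hJ.inf v h2
  rw [v.ord_inv, h1] at h3
  push_cast at h3
  rw [one_mul] at h3
  rwa [v.ord_inv]

/-- **branch data of `t₂`**, `ord` form: simple zeros of `t - c` for `c ≠ 0, -64`. -/
theorem t2_branch_gen {x t : F} {N : ℕ} (hJ : JBranchOrd K x N)
    (hrel : x * t ^ 2 = (t + 256) ^ 3) (v : Place K F) (c : K) (hc0 : c ≠ 0) (hc1 : c ≠ -64)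
    (h : 0 < v.ord (t - algebraMap K F c)) :
    v.ord (t - algebraMap K F c) = 1 := by
  by_cases hc2 : c = -256
  · subst hc2
    exact t2_branch_256 hJ hrel v h
  · by_cases hc3 : c = 512
    · subst hc3
      exact t2_branch_512 hJ hrel v h
    · exact t2_branch_generic hJ hrel v c hc0 hc1 hc2 hc3 h

end branch

/-! ### the modular function field -/

section modular

open ModularCurve

variable (N : ℕ) [NeZero N]

local notation "Kbar" => AlgebraicClosure ℚ
set_option quotPrecheck false in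
local notation "FN" => ↥(ModularCurve.modularFunctionFieldBar N)

/-- the branch data of `j` on `X₀(N)` (from `BranchJ`) -/
theorem jBranchOrd_jBar : JBranchOrd Kbar (jBar N) N where
  gen := fun v _ h0 h1 hv => ord_jBar_sub_eq_one N v h0 h1 hv
  zero := fun v hv => ord_jBar_dvd_three N v hv
  e1728 := fun v hv => ord_jBar_sub_dvd_two N v hv
  inf := fun v hv => ord_jBar_inv_dvd N v hv

/-- `t₂ = Δ(q)/Δ(q²)` as an element of `F_L = ℚ̄(X₀(N))`, `2 ∣ N` -/
def t2Bar (hN : 2 ∣ N) : FN := ⟨t2S Kbar, t2S_mem_bar N hN⟩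

@[simp] theorem t2Bar_coe (hN : 2 ∣ N) : ((t2Bar N hN : FN) : LaurentSeries Kbar) = t2S Kbar :=
  rfl

theorem jBar_coe : ((jBar N : FN) : LaurentSeries Kbar) = jqModC Kbar := by
  change coeffEmb Kbar jq = jqModC Kbar
  rw [coeffEmb, ← jqModC_rat, coeffMap_jqModC]

/-- `j t₂² = (t₂ + 256)³` in `F_L` -/
theorem t2Bar_rel (hN : 2 ∣ N) : jBar N * t2Bar N hN ^ 2 = (t2Bar N hN + 256) ^ 3 := by
  apply (algebraMap FN (LaurentSeries Kbar)).injective
  rw [map_mul, map_pow, map_pow, map_add, map_ofNat]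
  change ((jBar N : FN) : LaurentSeries Kbar) * ((t2Bar N hN : FN) : LaurentSeries Kbar) ^ 2 =
    (((t2Bar N hN : FN) : LaurentSeries Kbar) + 256) ^ 3
  rw [jBar_coe, t2Bar_coe]
  exact t2S_identity Kbar

theorem jBar_mem_adjoin_t2Bar (hN : 2 ∣ N) : jBar N ∈ Kbar⟮t2Bar N hN⟯ :=
  t2_mem_adjoin two_ne_zero (t2Bar_rel N hN)

theorem t2Bar_transcendental (hN : 2 ∣ N) : Transcendental Kbar (t2Bar N hN) :=
  pc_transcendental_of_mem (jBar_mem_adjoin_t2Bar N hN) (jBar_transcendental N)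

theorem t2Bar_finiteDimensional (hN : 2 ∣ N) : FiniteDimensional Kbar⟮t2Bar N hN⟯ FN := by
  have := (degreeStatement_holds N).2.1
  exact pc_finiteDimensional_of_mem (jBar_mem_adjoin_t2Bar N hN)

/-- `[F_L : ℚ̄(j)] = 3 [F_L : ℚ̄(t₂)]` -/
theorem t2Bar_finrank (hN : 2 ∣ N) :
    Module.finrank Kbar⟮jBar N⟯ FN = 3 * Module.finrank Kbar⟮t2Bar N hN⟯ FN := by
  have := (degreeStatement_holds N).2.1
  have : CharZero ↥Kbar⟮jBar N⟯ :=
    charZero_of_injective_algebraMap (algebraMap Kbar _).injective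
  have : Algebra.IsSeparable ↥Kbar⟮jBar N⟯ FN := inferInstance
  exact t2_finrank two_ne_zero (t2Bar_rel N hN) (jBar_transcendental N)

theorem place_deg_eq_one (v : Place Kbar FN) : v.deg = 1 :=
  (Fermat.Agent.H29.fundamentalIdentity Kbar _ (jBar N)
      (jBar_transcendental N) (degreeStatement_holds N).2.1).1 v

/-- **ES-D-BR (t₂).**  Branch data of `t₂` on `X₀(N)`, `2 ∣ N`, in characteristic 0. -/
def BranchT2Statement : Prop :=
  ∀ (N : ℕ) [NeZero N] (hN : 2 ∣ N)
    (v : Place (AlgebraicClosure ℚ) ↥(ModularCurve.modularFunctionFieldBar N)),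
    (1 ≤ ramIdx (t2Bar N hN) v) ∧
    (1 < ramIdx (t2Bar N hN) v →
      v.ord (t2Bar N hN) < 0 ∨ 0 < v.ord (t2Bar N hN) ∨
        0 < v.ord (t2Bar N hN - algebraMap (AlgebraicClosure ℚ) _ (-64))) ∧
    (v.ord (t2Bar N hN) < 0 → ramIdx (t2Bar N hN) v ∣ N) ∧
    (0 < v.ord (t2Bar N hN) → 2 * ramIdx (t2Bar N hN) v ∣ N) ∧
    (0 < v.ord (t2Bar N hN - algebraMap (AlgebraicClosure ℚ) _ (-64)) →
      ramIdx (t2Bar N hN) v ∣ 2)

end modular

theorem branchT2 : BranchT2Statement := by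
  intro N _ hN v
  have hJ := jBranchOrd_jBar N
  have hrel := t2Bar_rel N hN
  have hneg : v.ord (t2Bar N hN) < 0 → ramIdx (t2Bar N hN) v ∣ N := by
    intro h
    rw [ramIdx_of_ord_neg v _ h]
    have h2 := t2_branch_pole hJ hrel v h
    rw [v.ord_inv] at h2
    exact toNat_dvd_of_dvd (by omega) h2
  have hzero : 0 < v.ord (t2Bar N hN) → 2 * ramIdx (t2Bar N hN) v ∣ N := by
    intro h
    have h' : 0 < v.ord (t2Bar N hN - algebraMap (AlgebraicClosure ℚ) _ 0) := by
      rwa [map_zero, sub_zero]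
    rw [ramIdx_of_ord_sub_pos v _ h']
    simp only [map_zero, sub_zero]
    have h2 := t2_branch_zero hJ hrel v h
    have h3 : ((2 * (v.ord (t2Bar N hN)).toNat : ℕ) : ℤ) = 2 * v.ord (t2Bar N hN) := by
      push_cast
      rw [Int.toNat_of_nonneg h.le]
    rw [← h3] at h2
    exact Int.natCast_dvd_natCast.mp h2
  have h64 : 0 < v.ord (t2Bar N hN - algebraMap (AlgebraicClosure ℚ) _ (-64)) →
      ramIdx (t2Bar N hN) v ∣ 2 := by
    intro h
    rw [ramIdx_of_ord_sub_pos v _ h]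
    exact toNat_dvd_of_dvd h (by exact_mod_cast t2_branch_64 hJ hrel v h)
  have hpt := exists_point (place_deg_eq_one N) (t2Bar_transcendental N hN) v
  refine ⟨?_, ?_, hneg, hzero, h64⟩
  · rcases hpt with h | ⟨a, ha⟩
    · have h' : v.ord (t2Bar N hN) < 0 := by rw [v.ord_inv] at h; omega
      rw [ramIdx_of_ord_neg v _ h']
      omega
    · rw [ramIdx_of_ord_sub_pos v _ ha]
      omega
  · intro hram
    rcases hpt with h | ⟨a, ha⟩
    · left
      rw [v.ord_inv] at h; omega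
    · by_cases h0 : a = 0
      · right; left
        subst h0
        simpa using ha
      · by_cases h1 : a = -64
        · right; right
          subst h1
          exact ha
        · exfalso
          rw [ramIdx_of_ord_sub_pos v _ ha, t2_branch_gen hJ hrel v a h0 h1 ha] at hram
          simp at hram

end Fermat.Agent.H17.ESD

end
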