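import Fermat.Agent.H17.ESD.LaurentBridge
import Fermat.Agent.H27.Igusa.Chain
import Fermat.Agent.H67.IgusaTransfer

/-!
# P-ES / ES-D-BR (helper17): the unit equation at `p = 2`

`u = 2^12 Δ(q²)/Δ(q)` satisfies `u³ + 48 u² + (768 - j) u + 4096 = 0`, i.e. `(u + 16)³ = j u`;
equivalently `t₂ = Δ(q)/Δ(q²)` satisfies `j t₂² = (t₂ + 256)³`.

Proof: the coefficients of `∏ (Y - u_x)` (`x ∈ ℙ¹(𝔽₂)`) are integer polynomials in `j(t²)`
(landed modularity principle, `Fermat.Agent.H17.exists_intPoly_symPhi_u`); they are determined by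
the coefficients of `t^n`, `n ≤ 0`, which we compute.
-/

set_option autoImplicit false
set_option maxHeartbeats 400000

noncomputable section

open PowerSeries ModularCurve Fermat.Agent.H27 Fermat.Agent.H9 Fermat.Agent.H17

namespace Fermat.Agent.H17.ESD

/-! ### uniqueness of polynomials in `j(t^p)` -/

theorem intCast_mul_coeff (m : ℤ) (f : LaurentSeries ℂ) (n : ℤ) :
    (((m : LaurentSeries ℂ)) * f).coeff n = (m : ℂ) * f.coeff n := by
  rw [show ((m : LaurentSeries ℂ)) = HahnSeries.C (m : ℂ) by rw [map_intCast],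
    HahnSeries.C_mul_eq_smul, HahnSeries.coeff_smul, smul_eq_mul]

theorem evalAt_baseS_eq_zero_of_ordGE (p : ℕ) [NeZero p] (P : Polynomial ℤ)
    (h : OrdGE 1 (evalAt (baseS ℂ p) P)) : P = 0 := by
  by_contra hP
  set d := P.natDegree with hd
  have hlead : P.coeff d ≠ 0 := by
    rw [hd, Polynomial.coeff_natDegree]
    exact Polynomial.leadingCoeff_ne_zero.mpr hP
  have hev : evalAt (baseS ℂ p) P =
      ∑ i ∈ Finset.range (d + 1), ((P.coeff i : ℤ) : LaurentSeries ℂ) * baseS ℂ p ^ i := by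
    rw [evalAt, Polynomial.coe_eval₂RingHom, Polynomial.eval₂_eq_sum_range]
    rfl
  have hc : (evalAt (baseS ℂ p) P).coeff (-((p * d : ℕ) : ℤ)) = (P.coeff d : ℂ) := by
    rw [hev, HahnSeries.coeff_sum, Finset.sum_range_succ, intCast_mul_coeff,
      coeff_baseS_pow_self, mul_one]
    rw [Finset.sum_eq_zero, zero_add]
    intro i hi
    rw [intCast_mul_coeff, coeff_baseS_pow_of_lt, mul_zero]
    have hi' := Finset.mem_range.mp hi
    have hp : 0 < p := Nat.pos_of_ne_zero (NeZero.ne p)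
    have : p * i < p * d := Nat.mul_lt_mul_of_pos_left hi' hp
    omega
  have h0 := h (-((p * d : ℕ) : ℤ)) (by omega)
  rw [hc] at h0
  exact hlead (by exact_mod_cast h0)

/-- the coefficient of `symPhi (uFo p ζ)` is the value of the integer polynomial `Q` at `j(t^p)`
as soon as the difference has no terms of order `≤ 0` -/
theorem symPhi_coeff_eq_of_ordGE (p : ℕ) [Fact p.Prime] (k : ℕ) (Q : Polynomial ℤ)
    (h : OrdGE 1 ((symPhi (uFo p (zetaC p))).coeff k -
      (haveI : NeZero p := ⟨(Fact.out : p.Prime).ne_zero⟩; evalAt (baseS ℂ p) Q))) :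
    (symPhi (uFo p (zetaC p))).coeff k =
      (haveI : NeZero p := ⟨(Fact.out : p.Prime).ne_zero⟩; evalAt (baseS ℂ p) Q) := by
  haveI : NeZero p := ⟨(Fact.out : p.Prime).ne_zero⟩
  obtain ⟨P, hP⟩ := exists_intPoly_symPhi_u p k
  have h1 : P - Q = 0 := by
    apply evalAt_baseS_eq_zero_of_ordGE p
    rw [map_sub, ← hP]
    exact h
  rw [hP, sub_eq_zero.mp h1]

/-- factorisation of `symPhi (uFo p ζ)` -/
theorem symPhi_uFo_factor (p : ℕ) [NeZero p] (ζ : ℂˣ) :
    symPhi (uFo p ζ) = (Polynomial.X - Polynomial.C (unitInf ℂ p)) *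
      ∏ b ∈ Finset.range p, (Polynomial.X - Polynomial.C (unitFin p (ζ ^ b))) := by
  unfold symPhi
  rw [show (∏ x : OnePoint (ZMod p), (Polynomial.X - Polynomial.C (uFo p ζ x))) =
      ∏ x : Option (ZMod p), (Polynomial.X - Polynomial.C (uFo p ζ x)) from rfl,
    Fintype.prod_option]
  congr 1
  exact prod_zmod_val p
    (fun b => (Polynomial.X - Polynomial.C (unitFin p (ζ ^ b)) : Polynomial (LaurentSeries ℂ)))

/-! ### truncations over `ℂ` -/

theorem Ek_trunc3 : PSC 3 (Ek ℂ) ((1) + (-24) * X + (252) * X ^ 2 : ℂ⟦X⟧) := by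
  have h := dedekindEtaUnit_trunc3.map (Int.castRingHom ℂ)
  simpa only [Ek, map_add, map_mul, map_pow, map_neg, map_one, map_ofNat, PowerSeries.map_X]
    using h

theorem Eik_trunc3 : PSC 3 (Eik ℂ) ((1) + (24) * X + (324) * X ^ 2 : ℂ⟦X⟧) := by
  have h := dedekindEtaUnitInv_trunc3.map (Int.castRingHom ℂ)
  simpa only [Eik, map_add, map_mul, map_pow, map_neg, map_one, map_ofNat, PowerSeries.map_X]
    using h

theorem Jk_trunc3 : PSC 3 (Jk ℂ) ((1) + (744) * X + (196884) * X ^ 2 : ℂ⟦X⟧) := by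
  have h := jNum_trunc.map (Int.castRingHom ℂ)
  simpa only [Jk, map_add, map_mul, map_pow, map_neg, map_one, map_ofNat, PowerSeries.map_X]
    using h

theorem expand_two_Eik_trunc :
    PSC 3 (PowerSeries.expand 2 (by norm_num) (Eik ℂ)) ((1) + (24) * X ^ 2 : ℂ⟦X⟧) := by
  have h := (Eik_trunc3.expand 2 (by norm_num)).mono (show 3 ≤ 2 * 3 by norm_num)
  simp only [map_add, map_mul, map_pow, map_one, map_ofNat, PowerSeries.expand_X] at h
  exact PSC.reduce ((324) * X) h (by ring)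

theorem expand_two_Jk_trunc :
    PSC 3 (PowerSeries.expand 2 (by norm_num) (Jk ℂ)) ((1) + (744) * X ^ 2 : ℂ⟦X⟧) := by
  have h := (Jk_trunc3.expand 2 (by norm_num)).mono (show 3 ≤ 2 * 3 by norm_num)
  simp only [map_add, map_mul, map_pow, map_one, map_ofNat, PowerSeries.expand_X] at h
  exact PSC.reduce ((196884) * X) h (by ring)

/-- the power series part of the finite units at `p = 2` -/
def B2 (ξ : ℂ) : ℂ⟦X⟧ :=
  PowerSeries.C ξ * PowerSeries.rescale ξ (Ek ℂ) * PowerSeries.expand 2 (by norm_num) (Eik ℂ)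

/-- the power series part of the unit at infinity at `p = 2` -/
def U2 : ℂ⟦X⟧ :=
  ((2 : ℕ) : ℂ⟦X⟧) ^ 12 * PowerSeries.expand 2 (by norm_num)
    (PowerSeries.expand 2 (by norm_num) (Ek ℂ)) * PowerSeries.expand 2 (by norm_num) (Eik ℂ)

theorem B2_one_trunc : PSC 3 (B2 1) ((1) + (-24) * X + (276) * X ^ 2 : ℂ⟦X⟧) := by
  have h1 : B2 1 = Ek ℂ * PowerSeries.expand 2 (by norm_num) (Eik ℂ) := by
    rw [B2, map_one, one_mul, PowerSeries.rescale_one]
    rfl
  rw [h1]
  exact PSC.mul_witness ((-576) + (6048) * X) Ek_trunc3 expand_two_Eik_trunc (by ring)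

theorem B2_neg_one_trunc : PSC 3 (B2 (-1)) ((-1) + (-24) * X + (-276) * X ^ 2 : ℂ⟦X⟧) := by
  have h1 : PSC 3 (PowerSeries.C (-1 : ℂ) * PowerSeries.rescale (-1 : ℂ) (Ek ℂ))
      ((-1) + (-24) * X + (-252) * X ^ 2 : ℂ⟦X⟧) := by
    have h := (PSC.refl 3 (PowerSeries.C (-1 : ℂ))).mul (Ek_trunc3.rescale (-1 : ℂ))
    refine h.congr_right ?_
    simp only [map_add, map_mul, map_pow, map_neg, map_one, map_ofNat, PowerSeries.rescale_X]
    ring
  rw [B2]
  exact PSC.mul_witness ((-576) + (-6048) * X) h1 expand_two_Eik_trunc (by ring)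

theorem U2_trunc : PSC 1 U2 ((4096 : ℂ⟦X⟧)) := by
  have hE : PSC 1 (Ek ℂ) (1 : ℂ⟦X⟧) :=
    PSC.reduce ((-24) + (252) * X) (Ek_trunc3.mono (show 1 ≤ 3 by norm_num)) (by ring)
  have hEi : PSC 1 (Eik ℂ) (1 : ℂ⟦X⟧) :=
    PSC.reduce ((24) + (324) * X) (Eik_trunc3.mono (show 1 ≤ 3 by norm_num)) (by ring)
  have h1 := ((hE.expand 2 (by norm_num)).expand 2 (by norm_num)).mono
    (show 1 ≤ 2 * (2 * 1) by norm_num)
  have h2 := (hEi.expand 2 (by norm_num)).mono (show 1 ≤ 2 * 1 by norm_num)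
  have h3 := ((PSC.refl 1 (((2 : ℕ) : ℂ⟦X⟧) ^ 12)).mul h1).mul h2
  rw [U2]
  refine h3.congr_right ?_
  simp only [map_one, mul_one]
  norm_num

/-- the variable `t` -/
abbrev tL : LaurentSeries ℂ := HahnSeries.single (1 : ℤ) (1 : ℂ)

theorem tL_ne_zero : tL ≠ 0 := by
  simp [tL]

theorem single_eq_tL_zpow (n : ℤ) : HahnSeries.single n (1 : ℂ) = tL ^ n :=
  RatFunc.single_zpow n

theorem unitInf_two : unitInf ℂ 2 = tL ^ 2 * HahnSeries.ofPowerSeries ℤ ℂ U2 := by
  rw [unitInf_eq ℂ 2, HahnSeries.single_mul_single, mul_one,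
    show ((2 : ℕ) : ℤ) * (2 : ℕ) + -((2 : ℕ) : ℤ) = 2 by norm_num, single_eq_tL_zpow,
    zpow_ofNat]
  rfl

theorem unitFin_two (ξ : ℂˣ) :
    unitFin 2 ξ = tL⁻¹ * HahnSeries.ofPowerSeries ℤ ℂ (B2 (ξ : ℂ)) := by
  rw [unitFin_eq 2 ξ, HahnSeries.single_mul_single, mul_one,
    show (1 : ℤ) + -((2 : ℕ) : ℤ) = -1 by norm_num, single_eq_tL_zpow, zpow_neg_one]
  rfl

theorem baseS_two : baseS ℂ 2 =
    (tL ^ 2)⁻¹ * HahnSeries.ofPowerSeries ℤ ℂ (PowerSeries.expand 2 (by norm_num) (Jk ℂ)) := by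
  rw [baseS_eq ℂ 2, single_eq_tL_zpow, show -((2 : ℕ) : ℤ) = -2 by norm_num, zpow_neg,
    zpow_ofNat]

theorem zetaC_two : ((zetaC 2 : ℂˣ) : ℂ) = -1 := by
  unfold zetaC
  rw [Units.val_mk0]
  have : (2 : ℂ) * Real.pi * Complex.I / ((2 : ℕ) : ℂ) = Real.pi * Complex.I := by
    push_cast; ring
  rw [this, Complex.exp_pi_mul_I]

theorem symPhi_uFo_two : symPhi (uFo 2 (zetaC 2)) =
    (Polynomial.X - Polynomial.C (unitInf ℂ 2)) *
      ((Polynomial.X - Polynomial.C (unitFin 2 (1 : ℂˣ))) *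
        (Polynomial.X - Polynomial.C (unitFin 2 (zetaC 2)))) := by
  rw [symPhi_uFo_factor, Finset.prod_range_succ, Finset.prod_range_succ, Finset.prod_range_zero,
    one_mul, pow_zero, pow_one]

theorem cubic_expand {R : Type*} [CommRing R] (a b c : R) :
    (Polynomial.X - Polynomial.C a) * ((Polynomial.X - Polynomial.C b) *
      (Polynomial.X - Polynomial.C c)) =
    Polynomial.X ^ 3 + Polynomial.C (-(a + b + c)) * Polynomial.X ^ 2 +
      Polynomial.C (a * b + a * c + b * c) * Polynomial.X + Polynomial.C (-(a * b * c)) := by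
  simp only [map_neg, map_add, map_mul]
  ring

theorem cubic_coeff {R : Type*} [CommRing R] (a b c : R) :
    ((Polynomial.X - Polynomial.C a) * ((Polynomial.X - Polynomial.C b) *
      (Polynomial.X - Polynomial.C c))).coeff 2 = -(a + b + c) ∧
    ((Polynomial.X - Polynomial.C a) * ((Polynomial.X - Polynomial.C b) *
      (Polynomial.X - Polynomial.C c))).coeff 1 = a * b + a * c + b * c ∧
    ((Polynomial.X - Polynomial.C a) * ((Polynomial.X - Polynomial.C b) *
      (Polynomial.X - Polynomial.C c))).coeff 0 = -(a * b * c) := by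
  rw [cubic_expand]
  refine ⟨?_, ?_, ?_⟩ <;>
    simp only [Polynomial.coeff_add, Polynomial.coeff_C_mul, Polynomial.coeff_X_pow,
      Polynomial.coeff_X, Polynomial.coeff_C] <;> norm_num

theorem PSC.dvd_of_zero {R : Type*} [CommRing R] {n : ℕ} {f : R⟦X⟧} (h : PSC n f 0) :
    (X : R⟦X⟧) ^ n ∣ f := by
  unfold PSC at h
  rwa [sub_zero] at h

theorem evalAt_C (x : LaurentSeries ℂ) (n : ℤ) :
    evalAt x (Polynomial.C n) = (n : LaurentSeries ℂ) := by
  simp [evalAt]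

theorem evalAt_X (x : LaurentSeries ℂ) : evalAt x Polynomial.X = x := by
  simp [evalAt]

theorem psi2_coeff_two :
    (symPhi (uFo 2 (zetaC 2))).coeff 2 = evalAt (baseS ℂ 2) (Polynomial.C 48) := by
  haveI : Fact (Nat.Prime 2) := ⟨Nat.prime_two⟩
  apply symPhi_coeff_eq_of_ordGE 2 2
  have key : (symPhi (uFo 2 (zetaC 2))).coeff 2 - evalAt (baseS ℂ 2) (Polynomial.C 48) =
      HahnSeries.single (-((1 : ℕ) : ℤ)) (1 : ℂ) * HahnSeries.ofPowerSeries ℤ ℂ
        (-(X ^ 3 * U2 + B2 1 + B2 (-1)) - 48 * X) := by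
    rw [symPhi_uFo_two, (cubic_coeff _ _ _).1, unitInf_two, unitFin_two, unitFin_two,
      Units.val_one, zetaC_two, evalAt_C, single_eq_tL_zpow]
    simp only [map_sub, map_neg, map_add, map_mul, map_pow, map_ofNat,
      HahnSeries.ofPowerSeries_X, Nat.cast_one, zpow_neg_one, Int.cast_ofNat]
    have ht := tL_ne_zero
    field_simp
  rw [key]
  have h2 : PSC 3 (-(X ^ 3 * U2 + B2 1 + B2 (-1)) - 48 * X) 0 :=
    ((((PSC.X_pow_mul 3 U2).add B2_one_trunc).add B2_neg_one_trunc).neg.sub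
      (PSC.refl 3 (48 * X))).congr_right (by ring)
  exact ordGE_of_dvd (m := 1) (n := 1) (h2.mono (by norm_num)).dvd_of_zero

theorem psi2_coeff_one :
    (symPhi (uFo 2 (zetaC 2))).coeff 1 =
      evalAt (baseS ℂ 2) (Polynomial.C 768 - Polynomial.X) := by
  haveI : Fact (Nat.Prime 2) := ⟨Nat.prime_two⟩
  apply symPhi_coeff_eq_of_ordGE 2 1
  have key : (symPhi (uFo 2 (zetaC 2))).coeff 1 -
      evalAt (baseS ℂ 2) (Polynomial.C 768 - Polynomial.X) =
      HahnSeries.single (-((2 : ℕ) : ℤ)) (1 : ℂ) * HahnSeries.ofPowerSeries ℤ ℂ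
        (X ^ 3 * (U2 * B2 1) + X ^ 3 * (U2 * B2 (-1)) + B2 1 * B2 (-1) - 768 * X ^ 2 +
          PowerSeries.expand 2 (by norm_num) (Jk ℂ)) := by
    rw [symPhi_uFo_two, (cubic_coeff _ _ _).2.1, unitInf_two, unitFin_two, unitFin_two,
      Units.val_one, zetaC_two, map_sub, evalAt_C, evalAt_X, baseS_two, single_eq_tL_zpow]
    simp only [map_sub, map_neg, map_add, map_mul, map_pow, map_ofNat,
      HahnSeries.ofPowerSeries_X, Nat.cast_ofNat, zpow_neg, zpow_ofNat, Int.cast_ofNat]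
    have ht := tL_ne_zero
    field_simp
    ring
  rw [key]
  have h2 : PSC 3 (X ^ 3 * (U2 * B2 1) + X ^ 3 * (U2 * B2 (-1)) + B2 1 * B2 (-1) - 768 * X ^ 2 +
      PowerSeries.expand 2 (by norm_num) (Jk ℂ)) 0 :=
    PSC.reduce ((-76176) * X)
      (((((PSC.X_pow_mul 3 (U2 * B2 1)).add (PSC.X_pow_mul 3 (U2 * B2 (-1)))).add
        (B2_one_trunc.mul B2_neg_one_trunc)).sub (PSC.refl 3 (768 * X ^ 2))).add
          expand_two_Jk_trunc) (by ring)
  exact ordGE_of_dvd (m := 2) (n := 1) h2.dvd_of_zero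

theorem psi2_coeff_zero :
    (symPhi (uFo 2 (zetaC 2))).coeff 0 = evalAt (baseS ℂ 2) (Polynomial.C 4096) := by
  haveI : Fact (Nat.Prime 2) := ⟨Nat.prime_two⟩
  apply symPhi_coeff_eq_of_ordGE 2 0
  have key : (symPhi (uFo 2 (zetaC 2))).coeff 0 - evalAt (baseS ℂ 2) (Polynomial.C 4096) =
      HahnSeries.single (-((0 : ℕ) : ℤ)) (1 : ℂ) * HahnSeries.ofPowerSeries ℤ ℂ
        (-(U2 * B2 1 * B2 (-1)) - 4096) := by
    rw [symPhi_uFo_two, (cubic_coeff _ _ _).2.2, unitInf_two, unitFin_two, unitFin_two,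
      Units.val_one, zetaC_two, evalAt_C, single_eq_tL_zpow]
    simp only [map_sub, map_neg, map_add, map_mul, map_pow, map_ofNat,
      HahnSeries.ofPowerSeries_X, Nat.cast_zero, neg_zero, zpow_zero, Int.cast_ofNat, one_mul]
    have ht := tL_ne_zero
    field_simp
  rw [key]
  have h2 : PSC 1 (-(U2 * B2 1 * B2 (-1)) - 4096) 0 :=
    PSC.reduce ((-98304) * X + (312016896) * X ^ 3)
      ((((U2_trunc.mul (B2_one_trunc.mono (by norm_num))).mul
        (B2_neg_one_trunc.mono (by norm_num))).neg).sub (PSC.refl 1 4096)) (by ring)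
  exact ordGE_of_dvd (m := 0) (n := 1) h2.dvd_of_zero


/-! ### the unit equation -/

/-- **the unit equation at `p = 2`** in the variable `t` (`q = t²`) -/
theorem unitInf_two_cubic :
    unitInf ℂ 2 ^ 3 + 48 * unitInf ℂ 2 ^ 2 + (768 - baseS ℂ 2) * unitInf ℂ 2 + 4096 = 0 := by
  have h0 := symPhi_eval_self (uFo 2 (zetaC 2)) OnePoint.infty
  have hu : uFo 2 (zetaC 2) OnePoint.infty = unitInf ℂ 2 := rfl
  rw [hu] at h0
  have hexp : symPhi (uFo 2 (zetaC 2)) =
      Polynomial.X ^ 3 + Polynomial.C ((symPhi (uFo 2 (zetaC 2))).coeff 2) * Polynomial.X ^ 2 +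
        Polynomial.C ((symPhi (uFo 2 (zetaC 2))).coeff 1) * Polynomial.X +
        Polynomial.C ((symPhi (uFo 2 (zetaC 2))).coeff 0) := by
    conv_lhs => rw [symPhi_uFo_two, cubic_expand]
    rw [symPhi_uFo_two, (cubic_coeff _ _ _).1, (cubic_coeff _ _ _).2.1, (cubic_coeff _ _ _).2.2]
  rw [hexp, psi2_coeff_two, psi2_coeff_one, psi2_coeff_zero, map_sub, evalAt_C, evalAt_C,
    evalAt_C, evalAt_X] at h0
  simp only [Polynomial.eval_add, Polynomial.eval_mul, Polynomial.eval_pow, Polynomial.eval_X,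
    Polynomial.eval_C, Int.cast_ofNat] at h0
  linear_combination h0

/-- the unit `2^12 Δ(q²)/Δ(q)` satisfies `u³ + 48 u² + (768 - j) u + 4096 = 0` -/
theorem unitOne_two_cubic :
    unitOne ℂ 2 ^ 3 + 48 * unitOne ℂ 2 ^ 2 + (768 - jqModC ℂ) * unitOne ℂ 2 + 4096 = 0 := by
  apply qExpand_injective (R := ℂ) 2
  have h := unitInf_two_cubic
  rw [unitInf_eq_qExpand_unitOne, baseS] at h
  simpa only [map_add, map_mul, map_pow, map_sub, map_ofNat, map_zero] using h

end Fermat.Agent.H17.ESD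

namespace Fermat.Agent.H17.ESD

/-- the formal Hauptmodul of level `2`: `t₂ = Δ(q)/Δ(q²) = q⁻¹ ∏ (1-qⁿ)^24/(1-q^{2n})^24` -/
def t2S (k : Type*) [CommRing k] : LaurentSeries k :=
  deltaS k * qExpand k 2 (deltaInvS k)

theorem coeffMap_t2S {A B : Type*} [CommRing A] [CommRing B] (φ : A →+* B) :
    coeffMap φ (t2S A) = t2S B := by
  rw [t2S, map_mul, coeffMap_qExpand, Fermat.Agent.H67.coeffMap_deltaS,
    Fermat.Agent.H67.coeffMap_deltaInvS, t2S]

theorem t2S_mul_unitOne (k : Type*) [CommRing k] : t2S k * unitOne k 2 = 4096 := by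
  have h1 := deltaS_mul_deltaInvS k
  have h2 : qExpand k 2 (deltaS k) * qExpand k 2 (deltaInvS k) = 1 := by
    rw [← map_mul, h1, map_one]
  rw [t2S, unitOne]
  calc deltaS k * qExpand k 2 (deltaInvS k) *
        (((2 : ℕ) : LaurentSeries k) ^ 12 * qExpand k 2 (deltaS k) * deltaInvS k)
      = ((2 : ℕ) : LaurentSeries k) ^ 12 * (deltaS k * deltaInvS k) *
          (qExpand k 2 (deltaS k) * qExpand k 2 (deltaInvS k)) := by ring
    _ = 4096 := by rw [h1, h2]; norm_num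

/-- `j t₂² = (t₂ + 256)³` over `ℂ` -/
theorem t2S_identity_complex : jqModC ℂ * t2S ℂ ^ 2 = (t2S ℂ + 256) ^ 3 := by
  have h := unitOne_two_cubic
  have hm := t2S_mul_unitOne ℂ
  have h4 : (4096 : LaurentSeries ℂ) ≠ 0 := by
    rw [← map_ofNat (HahnSeries.C : ℂ →+* LaurentSeries ℂ) 4096]
    intro h0
    have := HahnSeries.C_injective (h0.trans (map_zero _).symm)
    norm_num at this
  have key : (4096 : LaurentSeries ℂ) * ((t2S ℂ + 256) ^ 3 - jqModC ℂ * t2S ℂ ^ 2) = 0 := by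
    linear_combination (t2S ℂ) ^ 3 * h -
      ((t2S ℂ) ^ 2 * (unitOne ℂ 2) ^ 2 + 4096 * t2S ℂ * unitOne ℂ 2 + 4096 ^ 2
        + 48 * t2S ℂ * (t2S ℂ * unitOne ℂ 2 + 4096)
        + (768 - jqModC ℂ) * (t2S ℂ) ^ 2) * hm
  rcases mul_eq_zero.mp key with h5 | h5
  · exact absurd h5 h4
  · exact (sub_eq_zero.mp h5).symm

/-- `j t₂² = (t₂ + 256)³` over `ℤ` -/
theorem t2S_identity_int : jqModC ℤ * t2S ℤ ^ 2 = (t2S ℤ + 256) ^ 3 := by
  apply Fermat.Agent.H57.coeffMap_injective (Int.castRingHom ℂ)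
    (RingHom.injective_int (Int.castRingHom ℂ))
  simp only [map_mul, map_pow, map_add, map_ofNat, coeffMap_jqModC, coeffMap_t2S]
  exact t2S_identity_complex

/-- **the modular relation at level 2**: `j t₂² = (t₂ + 256)³` over every commutative ring -/
theorem t2S_identity (k : Type*) [CommRing k] : jqModC k * t2S k ^ 2 = (t2S k + 256) ^ 3 := by
  have h := congrArg (coeffMap (Int.castRingHom k)) t2S_identity_int
  simpa only [map_mul, map_pow, map_add, map_ofNat, coeffMap_jqModC, coeffMap_t2S] using h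

end Fermat.Agent.H17.ESD
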