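import Mathlib
import Fermat.Prelude.Def_ModularCurve_X0

/-!
# P-ES / ES-D-BR (helper17): truncation calculus for power series

`PSC n f g` : `f ≡ g mod X^n` in `R⟦X⟧`, with the closure properties needed to compute the first
coefficients of the formal series `Δ`, `1/Δ`, `E₄`, `j` and of their twists.
-/

set_option autoImplicit false

noncomputable section

open PowerSeries
open scoped PowerSeries.WithPiTopology

namespace Fermat.Agent.H17.ESD

section Calculus

variable {R : Type*} [CommRing R]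

/-- `f ≡ g mod X^n` -/
def PSC (n : ℕ) (f g : R⟦X⟧) : Prop := (X : R⟦X⟧) ^ n ∣ f - g

theorem PSC.refl (n : ℕ) (f : R⟦X⟧) : PSC n f f := by
  unfold PSC; rw [sub_self]; exact dvd_zero _

theorem PSC.of_eq {n : ℕ} {f g : R⟦X⟧} (h : f = g) : PSC n f g := h ▸ PSC.refl n f

theorem PSC.symm {n : ℕ} {f g : R⟦X⟧} (h : PSC n f g) : PSC n g f := by
  unfold PSC at *
  rw [← neg_sub]
  exact (dvd_neg).mpr h

theorem PSC.trans {n : ℕ} {f g h : R⟦X⟧} (h₁ : PSC n f g) (h₂ : PSC n g h) : PSC n f h := by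
  unfold PSC at *
  have := dvd_add h₁ h₂
  rwa [sub_add_sub_cancel] at this

theorem PSC.add {n : ℕ} {f g f' g' : R⟦X⟧} (h₁ : PSC n f f') (h₂ : PSC n g g') :
    PSC n (f + g) (f' + g') := by
  unfold PSC at *
  have := dvd_add h₁ h₂
  rwa [show f - f' + (g - g') = f + g - (f' + g') by ring] at this

theorem PSC.sub {n : ℕ} {f g f' g' : R⟦X⟧} (h₁ : PSC n f f') (h₂ : PSC n g g') :
    PSC n (f - g) (f' - g') := by
  unfold PSC at *
  have := dvd_sub h₁ h₂
  rwa [show f - f' - (g - g') = f - g - (f' - g') by ring] at this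

theorem PSC.neg {n : ℕ} {f f' : R⟦X⟧} (h₁ : PSC n f f') : PSC n (-f) (-f') := by
  unfold PSC at *
  have := (dvd_neg).mpr h₁
  rwa [show -(f - f') = -f - -f' by ring] at this

theorem PSC.mul {n : ℕ} {f g f' g' : R⟦X⟧} (h₁ : PSC n f f') (h₂ : PSC n g g') :
    PSC n (f * g) (f' * g') := by
  unfold PSC at *
  have := dvd_add (Dvd.dvd.mul_right h₁ g) (Dvd.dvd.mul_left h₂ f')
  rwa [show (f - f') * g + f' * (g - g') = f * g - f' * g' by ring] at this

theorem PSC.pow {n : ℕ} {f f' : R⟦X⟧} (h₁ : PSC n f f') (m : ℕ) : PSC n (f ^ m) (f' ^ m) := by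
  induction m with
  | zero => simp only [pow_zero]; exact PSC.refl _ _
  | succ m ih => rw [pow_succ, pow_succ]; exact ih.mul h₁

theorem PSC.mono {n m : ℕ} {f g : R⟦X⟧} (h : PSC n f g) (hmn : m ≤ n) : PSC m f g := by
  unfold PSC at *
  exact (pow_dvd_pow X hmn).trans h

theorem PSC.of_witness {n : ℕ} {f g : R⟦X⟧} (r : R⟦X⟧) (h : f = g + X ^ n * r) : PSC n f g := by
  unfold PSC
  exact ⟨r, by rw [h]; ring⟩

/-- the workhorse: multiply two truncations and reduce with an explicit witness -/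
theorem PSC.mul_witness {n : ℕ} {f g P Q S : R⟦X⟧} (r : R⟦X⟧) (hf : PSC n f P) (hg : PSC n g Q)
    (h : P * Q = S + X ^ n * r) : PSC n (f * g) S :=
  (hf.mul hg).trans (PSC.of_witness r h)

theorem PSC.reduce {n : ℕ} {f P S : R⟦X⟧} (r : R⟦X⟧) (hf : PSC n f P)
    (h : P = S + X ^ n * r) : PSC n f S :=
  hf.trans (PSC.of_witness r h)

theorem PSC.congr_right {n : ℕ} {f P S : R⟦X⟧} (hf : PSC n f P) (h : P = S) : PSC n f S :=
  h ▸ hf

theorem PSC.X_pow_mul (n : ℕ) (f : R⟦X⟧) : PSC n (X ^ n * f) 0 :=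
  PSC.of_witness f (by ring)

theorem PSC.inv_witness {n : ℕ} {f fi P Q : R⟦X⟧} (r : R⟦X⟧) (hffi : f * fi = 1)
    (hf : PSC n f P) (h : P * Q = 1 + X ^ n * r) : PSC n fi Q := by
  have h1 : PSC n (f * Q) 1 := (hf.mul (PSC.refl n Q)).trans (PSC.of_witness r h)
  have h2 : PSC n (fi * (f * Q)) (fi * 1) := (PSC.refl n fi).mul h1
  have h3 : fi * (f * Q) = Q := by
    calc fi * (f * Q) = (f * fi) * Q := by ring
      _ = Q := by rw [hffi, one_mul]
  rw [h3, mul_one] at h2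
  exact h2.symm

theorem PSC.map {S : Type*} [CommRing S] (φ : R →+* S) {n : ℕ} {f g : R⟦X⟧} (h : PSC n f g) :
    PSC n (PowerSeries.map φ f) (PowerSeries.map φ g) := by
  unfold PSC at *
  obtain ⟨r, hr⟩ := h
  refine ⟨PowerSeries.map φ r, ?_⟩
  rw [← map_sub, hr, map_mul, map_pow, PowerSeries.map_X]

theorem PSC.rescale (a : R) {n : ℕ} {f g : R⟦X⟧} (h : PSC n f g) :
    PSC n (PowerSeries.rescale a f) (PowerSeries.rescale a g) := by
  unfold PSC at *
  obtain ⟨r, hr⟩ := h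
  refine ⟨PowerSeries.C (a ^ n) * PowerSeries.rescale a r, ?_⟩
  rw [← map_sub, hr, map_mul, map_pow, PowerSeries.rescale_X, mul_pow, ← map_pow]
  ring

theorem PSC.expand (p : ℕ) (hp : p ≠ 0) {n : ℕ} {f g : R⟦X⟧} (h : PSC n f g) :
    PSC (p * n) (PowerSeries.expand p hp f) (PowerSeries.expand p hp g) := by
  unfold PSC at *
  obtain ⟨r, hr⟩ := h
  refine ⟨PowerSeries.expand p hp r, ?_⟩
  rw [← map_sub, hr, map_mul, map_pow, PowerSeries.expand_X, ← pow_mul]

theorem PSC.coeff_eq {n : ℕ} {f g : R⟦X⟧} (h : PSC n f g) {m : ℕ} (hm : m < n) :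
    PowerSeries.coeff m f = PowerSeries.coeff m g := by
  unfold PSC at h
  rw [PowerSeries.X_pow_dvd_iff] at h
  have := h m hm
  rw [map_sub, sub_eq_zero] at this
  exact this

theorem PSC.of_coeff {n : ℕ} {f g : R⟦X⟧}
    (h : ∀ m < n, PowerSeries.coeff m f = PowerSeries.coeff m g) : PSC n f g := by
  unfold PSC
  rw [PowerSeries.X_pow_dvd_iff]
  intro m hm
  rw [map_sub, h m hm, sub_self]

end Calculus

/-! ### the first coefficients of the basic integral series -/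

section Integers

theorem etaProd_eq_pentagonalSeries : ModularCurve.etaProd = pentagonalSeries ℤ :=
  (PowerSeries.WithPiTopology.hasProd_one_sub_X_pow (R := ℤ)).tprod_eq

theorem not_mem_range_pentagonal (m : ℕ) (hm : m = 3 ∨ m = 4 ∨ m = 6) :
    m ∉ Set.range pentagonal := by
  rintro ⟨k, hk⟩
  have h2 : (2 : ℤ) * m = k * (3 * k - 1) := by
    have := two_mul_natCast_pentagonal k
    rw [hk] at this
    exact this
  have hm6 : (m : ℤ) ≤ 6 := by rcases hm with rfl | rfl | rfl <;> norm_num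
  have hk1 : k ≤ 3 := by nlinarith
  have hk2 : -3 ≤ k := by nlinarith
  rcases hm with rfl | rfl | rfl <;> interval_cases k <;> omega

theorem etaProd_trunc : PSC 7 ModularCurve.etaProd (1 - X - X ^ 2 + X ^ 5 : ℤ⟦X⟧) := by
  refine PSC.of_coeff fun m hm => ?_
  rw [etaProd_eq_pentagonalSeries]
  have c0 : PowerSeries.constantCoeff (pentagonalSeries ℤ) = 1 := by
    have := coeff_pentagonalSeries_pentagonal (R := ℤ) 0
    rw [show pentagonal 0 = 0 by decide] at this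
    simpa using this
  have c1 : (pentagonalSeries ℤ).coeff 1 = -1 := by
    have := coeff_pentagonalSeries_pentagonal (R := ℤ) 1
    rw [show pentagonal 1 = 1 by decide] at this
    simpa using this
  have c2 : (pentagonalSeries ℤ).coeff 2 = -1 := by
    have := coeff_pentagonalSeries_pentagonal (R := ℤ) (-1)
    rw [show pentagonal (-1) = 2 by decide] at this
    simpa using this
  have c5 : (pentagonalSeries ℤ).coeff 5 = 1 := by
    have := coeff_pentagonalSeries_pentagonal (R := ℤ) 2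
    rw [show pentagonal 2 = 5 by decide] at this
    simpa using this
  have c3 : (pentagonalSeries ℤ).coeff 3 = 0 :=
    coeff_pentagonalSeries_eq_zero ℤ (not_mem_range_pentagonal 3 (Or.inl rfl))
  have c4 : (pentagonalSeries ℤ).coeff 4 = 0 :=
    coeff_pentagonalSeries_eq_zero ℤ (not_mem_range_pentagonal 4 (Or.inr (Or.inl rfl)))
  have c6 : (pentagonalSeries ℤ).coeff 6 = 0 :=
    coeff_pentagonalSeries_eq_zero ℤ (not_mem_range_pentagonal 6 (Or.inr (Or.inr rfl)))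
  interval_cases m <;>
    simp [PowerSeries.coeff_X_pow, PowerSeries.coeff_X, PowerSeries.coeff_one, *]

theorem eta1_trunc : PSC 7 (ModularCurve.etaProd ^ 1) ((1) + (-1) * X + (-1) * X ^ 2 + (1) * X ^ 5 : ℤ⟦X⟧) := by
  rw [pow_one]
  exact etaProd_trunc.trans (PSC.of_eq (by ring))

theorem eta2_trunc : PSC 7 (ModularCurve.etaProd ^ 2) ((1) + (-2) * X + (-1) * X ^ 2 + (2) * X ^ 3 + (1) * X ^ 4 + (2) * X ^ 5 + (-2) * X ^ 6 : ℤ⟦X⟧) := by
  rw [show ModularCurve.etaProd ^ 2 = ModularCurve.etaProd ^ 1 * ModularCurve.etaProd ^ 1 by ring]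
  exact PSC.mul_witness ((-2) + (1) * X ^ 3) eta1_trunc eta1_trunc (by ring)

theorem eta4_trunc : PSC 7 (ModularCurve.etaProd ^ 4) ((1) + (-4) * X + (2) * X ^ 2 + (8) * X ^ 3 + (-5) * X ^ 4 + (-4) * X ^ 5 + (-10) * X ^ 6 : ℤ⟦X⟧) := by
  rw [show ModularCurve.etaProd ^ 4 = ModularCurve.etaProd ^ 2 * ModularCurve.etaProd ^ 2 by ring]
  exact PSC.mul_witness ((8) + (13) * X + (-4) * X ^ 2 + (-8) * X ^ 4 + (4) * X ^ 5) eta2_trunc eta2_trunc (by ring)

theorem eta8_trunc : PSC 7 (ModularCurve.etaProd ^ 8) ((1) + (-8) * X + (20) * X ^ 2 + (-70) * X ^ 4 + (64) * X ^ 5 + (56) * X ^ 6 : ℤ⟦X⟧) := by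
  rw [show ModularCurve.etaProd ^ 8 = ModularCurve.etaProd ^ 4 * ModularCurve.etaProd ^ 4 by ring]
  exact PSC.mul_witness ((-16) + (-79) * X + (-120) * X ^ 2 + (116) * X ^ 3 + (80) * X ^ 4 + (100) * X ^ 5) eta4_trunc eta4_trunc (by ring)

theorem eta12_trunc : PSC 7 (ModularCurve.etaProd ^ 12) ((1) + (-12) * X + (54) * X ^ 2 + (-88) * X ^ 3 + (-99) * X ^ 4 + (540) * X ^ 5 + (-418) * X ^ 6 : ℤ⟦X⟧) := by
  rw [show ModularCurve.etaProd ^ 12 = ModularCurve.etaProd ^ 8 * ModularCurve.etaProd ^ 4 by ring]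
  exact PSC.mul_witness ((-656) + (774) * X + (408) * X ^ 2 + (164) * X ^ 3 + (-864) * X ^ 4 + (-560) * X ^ 5) eta8_trunc eta4_trunc (by ring)

theorem eta24_trunc : PSC 7 (ModularCurve.etaProd ^ 24) ((1) + (-24) * X + (252) * X ^ 2 + (-1472) * X ^ 3 + (4830) * X ^ 4 + (-6048) * X ^ 5 + (-16744) * X ^ 6 : ℤ⟦X⟧) := by
  rw [show ModularCurve.etaProd ^ 24 = ModularCurve.etaProd ^ 12 * ModularCurve.etaProd ^ 12 by ring]
  exact PSC.mul_witness ((85776) + (-130383) * X + (-33352) * X ^ 2 + (374364) * X ^ 3 + (-451440) * X ^ 4 + (174724) * X ^ 5) eta12_trunc eta12_trunc (by ring)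

theorem dedekindEtaUnit_trunc : PSC 7 ModularCurve.dedekindEtaUnit ((1) + (-24) * X + (252) * X ^ 2 + (-1472) * X ^ 3 + (4830) * X ^ 4 + (-6048) * X ^ 5 + (-16744) * X ^ 6 : ℤ⟦X⟧) :=
  eta24_trunc

theorem dedekindEtaUnitInv_trunc : PSC 7 ModularCurve.dedekindEtaUnitInv ((1) + (24) * X + (324) * X ^ 2 + (3200) * X ^ 3 + (25650) * X ^ 4 + (176256) * X ^ 5 + (1073720) * X ^ 6 : ℤ⟦X⟧) :=
  PSC.inv_witness ((-6014976) + (110239452) * X + (-937911360) * X ^ 2 + (3690587712) * X ^ 3 + (-9445089024) * X ^ 4 + (-17978367680) * X ^ 5) ModularCurve.dedekindEtaUnit_mul_inv dedekindEtaUnit_trunc (by ring)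

/-- `∏ (1 - Xⁿ)^12` -/
def eta12 : ℤ⟦X⟧ := ModularCurve.etaProd ^ 12

/-- the inverse of `∏ (1 - Xⁿ)^12` -/
def eta12Inv : ℤ⟦X⟧ := eta12.invOfUnit 1

theorem constantCoeff_eta12 : PowerSeries.constantCoeff eta12 = 1 := by
  rw [eta12, map_pow, ModularCurve.constantCoeff_etaProd, one_pow]

theorem eta12_mul_inv : eta12 * eta12Inv = 1 :=
  PowerSeries.mul_invOfUnit _ _ (by rw [constantCoeff_eta12]; rfl)

theorem eta12_sq : eta12 ^ 2 = ModularCurve.dedekindEtaUnit := by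
  rw [eta12, ModularCurve.dedekindEtaUnit, ← pow_mul]

theorem eta12Inv_sq : eta12Inv ^ 2 = ModularCurve.dedekindEtaUnitInv := by
  have h1 : ModularCurve.dedekindEtaUnit * eta12Inv ^ 2 = 1 := by
    rw [← eta12_sq, ← mul_pow, eta12_mul_inv, one_pow]
  calc eta12Inv ^ 2 = (ModularCurve.dedekindEtaUnit * ModularCurve.dedekindEtaUnitInv) * eta12Inv ^ 2 := by
        rw [ModularCurve.dedekindEtaUnit_mul_inv, one_mul]
    _ = ModularCurve.dedekindEtaUnitInv * (ModularCurve.dedekindEtaUnit * eta12Inv ^ 2) := by ring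
    _ = ModularCurve.dedekindEtaUnitInv := by rw [h1, mul_one]

theorem eta12_trunc' : PSC 7 eta12 ((1) + (-12) * X + (54) * X ^ 2 + (-88) * X ^ 3 + (-99) * X ^ 4 + (540) * X ^ 5 + (-418) * X ^ 6 : ℤ⟦X⟧) := eta12_trunc

theorem eta12Inv_trunc : PSC 7 eta12Inv ((1) + (12) * X + (90) * X ^ 2 + (520) * X ^ 3 + (2535) * X ^ 4 + (10908) * X ^ 5 + (42614) * X ^ 6 : ℤ⟦X⟧) :=
  PSC.inv_witness ((-153312) + (1333467) * X + (-3678384) * X ^ 2 + (611904) * X ^ 3 + (18452016) * X ^ 4 + (-17812652) * X ^ 5) eta12_mul_inv eta12_trunc' (by ring)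

theorem eisenstein4_trunc : PSC 3 ModularCurve.eisenstein4 ((1) + (240) * X + (2160) * X ^ 2 : ℤ⟦X⟧) := by
  refine PSC.of_coeff fun m hm => ?_
  have h2 : ∑ d ∈ Nat.divisors 2, (d : ℤ) ^ 3 = 9 := by decide
  have e1 : PowerSeries.coeff 1 (240 : ℤ⟦X⟧) = 0 := by
    rw [show (240 : ℤ⟦X⟧) = PowerSeries.C (240 : ℤ) by simp, PowerSeries.coeff_C]; simp
  interval_cases m
  · simp [ModularCurve.eisenstein4, PowerSeries.coeff_mk]
  · simp [ModularCurve.eisenstein4, PowerSeries.coeff_mk, PowerSeries.coeff_one, map_ofNat,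
      PowerSeries.coeff_mul_X_pow']
  · simp [ModularCurve.eisenstein4, PowerSeries.coeff_mk, PowerSeries.coeff_one, h2, map_ofNat, e1,
      PowerSeries.coeff_mul_X_pow']

theorem eisenstein4_sq_trunc : PSC 3 (ModularCurve.eisenstein4 * ModularCurve.eisenstein4)
    ((1) + (480) * X + (61920) * X ^ 2 : ℤ⟦X⟧) :=
  PSC.mul_witness ((1036800) + (4665600) * X) eisenstein4_trunc eisenstein4_trunc (by ring)

theorem eisenstein4_cube_trunc : PSC 3 (ModularCurve.eisenstein4 ^ 3) ((1) + (720) * X + (179280) * X ^ 2 : ℤ⟦X⟧) := by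
  rw [show ModularCurve.eisenstein4 ^ 3 =
    (ModularCurve.eisenstein4 * ModularCurve.eisenstein4) * ModularCurve.eisenstein4 by ring]
  exact PSC.mul_witness ((15897600) + (133747200) * X) eisenstein4_sq_trunc eisenstein4_trunc (by ring)

theorem dedekindEtaUnit_trunc3 : PSC 3 ModularCurve.dedekindEtaUnit
    ((1) + (-24) * X + (252) * X ^ 2 : ℤ⟦X⟧) :=
  PSC.reduce ((-1472) + (4830) * X + (-6048) * X ^ 2 + (-16744) * X ^ 3)
    (dedekindEtaUnit_trunc.mono (by norm_num)) (by ring)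

theorem dedekindEtaUnitInv_trunc3 : PSC 3 ModularCurve.dedekindEtaUnitInv
    ((1) + (24) * X + (324) * X ^ 2 : ℤ⟦X⟧) :=
  (dedekindEtaUnitInv_trunc.mono (by norm_num)).trans
    (PSC.of_witness ((3200) + (25650) * X + (176256) * X ^ 2 + (1073720) * X ^ 3) (by ring))

theorem jNum_trunc : PSC 3 ModularCurve.jNum ((1) + (744) * X + (196884) * X ^ 2 : ℤ⟦X⟧) := by
  rw [ModularCurve.jNum]
  exact PSC.mul_witness ((4536000) + (58086720) * X) eisenstein4_cube_trunc dedekindEtaUnitInv_trunc3 (by ring)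

end Integers


end Fermat.Agent.H17.ESD
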