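import Fermat.Agent.H17.ESD.BranchT2
import Fermat.Agent.H2.KLBRModelT
import Fermat.Agent.H58.KL.ModelTr

/-!
# P-ES / KL model inputs for `ℓ = 3`, `x₀ = t₂` (helper17)

* `t2S_eq_single_mul` : `t2S k = q⁻¹ · (1 + …)`, `t2S_order : (t2S k).order = -1`;
* `t2S_rat_mem` : `t2S ℚ ∈ modularFunctionFieldFull N` for `2 ∣ N`;
* `modelTranscendental_t2` : `ModelTranscendentalStatement N (t2S ℚ)`;
* `modelBranch_t2` : `ModelBranchStatement N 3 (t2S ℚ) (2 * N)` for `2 ∣ N`, `¬ 3 ∣ N`
  (from `branchT2` and helper2's `klbr_model_t`).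
-/

set_option autoImplicit false
set_option synthInstance.maxHeartbeats 400000
set_option maxHeartbeats 400000

noncomputable section

open AlgebraicCurve ModularCurve IntermediateField PowerSeries

namespace Fermat.Agent.H17.ESD

open Fermat.Agent.H27 Fermat.Agent.H27.ESD Fermat.Agent.H9

/-- the numerator of `t₂`: `∏ (1 - qⁿ)^24 / ∏ (1 - q^{2n})^24` -/
def t2Num (k : Type*) [CommRing k] : k⟦X⟧ :=
  Ek k * PowerSeries.expand 2 two_ne_zero (Eik k)

theorem t2S_eq_single_mul (k : Type*) [CommRing k] :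
    t2S k = HahnSeries.single (-1 : ℤ) (1 : k) * HahnSeries.ofPowerSeries ℤ k (t2Num k) := by
  rw [t2S, deltaS_eq, deltaInvS_eq, map_mul, qExpand_single,
    Fermat.Agent.H42.qExpand_ofPowerSeries_eq_expand, t2Num, map_mul]
  have h : HahnSeries.single (1 : ℤ) (1 : k) * HahnSeries.single (((2 : ℕ) : ℤ) * (-1)) (1 : k) =
      HahnSeries.single (-1 : ℤ) (1 : k) := by
    rw [HahnSeries.single_mul_single, one_mul]
    norm_num
  rw [← h]
  ring

theorem constantCoeff_t2Num (k : Type*) [CommRing k] : constantCoeff (t2Num k) = 1 := by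
  rw [t2Num, map_mul, PowerSeries.constantCoeff_expand, Ek, Eik,
    ← PowerSeries.coeff_zero_eq_constantCoeff_apply, ← PowerSeries.coeff_zero_eq_constantCoeff_apply,
    PowerSeries.coeff_map, PowerSeries.coeff_map,
    PowerSeries.coeff_zero_eq_constantCoeff_apply, PowerSeries.coeff_zero_eq_constantCoeff_apply,
    constantCoeff_dedekindEtaUnit, constantCoeff_dedekindEtaUnitInv]
  simp

/-- `t₂` has a simple pole at the cusp `∞` (leading coefficient `1`). -/
theorem t2S_order (k : Type*) [Field k] : (t2S k).order = -1 := by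
  set g := HahnSeries.ofPowerSeries ℤ k (t2Num k) with hg
  have hc0 : g.coeff 0 = 1 := by
    rw [hg, coeff_zero_ofPowerSeries, constantCoeff_t2Num]
  have hg0 : g ≠ 0 := by
    intro h
    rw [h, HahnSeries.coeff_zero] at hc0
    exact zero_ne_one hc0
  have hord : g.order = 0 := by
    apply le_antisymm
    · exact HahnSeries.order_le_of_coeff_ne_zero (by rw [hc0]; exact one_ne_zero)
    · by_contra hlt
      rw [not_le] at hlt
      exact hg0 (HahnSeries.coeff_order_eq_zero.mp (ordGE_ofPowerSeries (t2Num k) _ hlt))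
  rw [t2S_eq_single_mul, HahnSeries.order_single_mul_of_isRegular isRegular_one hg0, hord]
  rfl

section modular

variable (N : ℕ) [NeZero N]

/-- `t₂ ∈ ℚ(X₀(N))`, `2 ∣ N` (membership over `ℚ`) -/
theorem t2S_rat_mem (hN : 2 ∣ N) : t2S ℚ ∈ modularFunctionFieldFull N := by
  have h := t2S_mem_fullC ℚ (by norm_num) N hN
  rwa [modularFunctionFieldFullC_rat] at h

theorem coeffEmb_t2S (L : Type*) [Field L] [Algebra ℚ L] : coeffEmb L (t2S ℚ) = t2S L := by
  rw [coeffEmb, coeffMap_t2S]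

/-- **KL-M-TR for `t₂`**. -/
theorem modelTranscendental_t2 :
    Fermat.Agent.H22.KL.ModelTranscendentalStatement N (t2S ℚ) :=
  Fermat.Agent.H58.modelTranscendental_of_order_ne_zero N (t2S ℚ) (by
    rw [t2S_order]
    norm_num)

/-- **KL-BR for `t₂`, `ℓ = 3`**: `ModelBranchStatement N 3 (t2S ℚ) (2 N)`. -/
theorem modelBranch_t2 (hN : 2 ∣ N) (h3 : ¬ 3 ∣ N) :
    Fermat.Agent.H22.KL.ModelBranchStatement N 3 (t2S ℚ) (2 * N) := by
  have hcopN : Nat.Coprime N 3 :=
    (Nat.coprime_comm).mp ((Nat.Prime.coprime_iff_not_dvd Nat.prime_three).mpr h3)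
  refine Fermat.Agent.H2.klbr_model_t N 3 (t2S ℚ) (t2Bar N hN)
    (by rw [t2Bar_coe, coeffEmb_t2S]) (t2Bar_transcendental N hN)
    (t2Bar_finiteDimensional N hN) (by rw [coeffEmb_t2S, t2S_order]) (-64) N 2 N ?_ hcopN
    (by norm_num) hcopN ?_ (2 * N) (mul_ne_zero two_ne_zero (NeZero.ne N))
    (Dvd.intro_left 2 rfl) (Dvd.intro N rfl) (Dvd.intro_left 2 rfl)
  · have : IsCoprime (64 : ℤ) ((3 : ℕ) : ℤ) := by
      rw [Nat.cast_ofNat]
      exact (Int.isCoprime_iff_gcd_eq_one).mpr (by norm_num)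
    exact this.neg_left
  · intro v
    obtain ⟨-, hb, hneg, hzero, h64⟩ := branchT2 N hN v
    have e : algebraMap (AlgebraicClosure ℚ) ↥(modularFunctionFieldBar N)
        (((-64 : ℤ) : ℤ) : AlgebraicClosure ℚ) =
        algebraMap (AlgebraicClosure ℚ) ↥(modularFunctionFieldBar N) (-64) := by
      push_cast
      rfl
    rw [e]
    exact ⟨hb, hneg, fun h => Dvd.dvd.trans (Dvd.intro_left 2 rfl) (hzero h), h64⟩

end modular

end Fermat.Agent.H17.ESD

end
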