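import Fermat.Agent.H17.ESD.PSTrunc
import Fermat.Agent.H17.HeckeDataComplex
import Fermat.Agent.H42.KroneckerFormal
import Fermat.Agent.H9.Igusa.OrderCalculus
import Fermat.Agent.H57.HeckeFormal

/-!
# P-ES / ES-D-BR (helper17): from power series to the Laurent series of the Igusa library

The formal series `unitInf`, `unitFin`, `baseS` of `Fermat.Agent.H27` as
`t^m * (power series)`, the order estimate `OrdGE` from a divisibility of power series, and the
uniqueness principle "a polynomial in `j(t^p)` without polar part and constant term is zero".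
-/

set_option autoImplicit false

noncomputable section

open PowerSeries ModularCurve Fermat.Agent.H27 Fermat.Agent.H9

namespace Fermat.Agent.H17.ESD

section Bridge

variable (k : Type*) [CommRing k]

/-- `∏ (1 - Xⁿ)^24` over `k` -/
def Ek : k⟦X⟧ := PowerSeries.map (Int.castRingHom k) dedekindEtaUnit

/-- the inverse of `∏ (1 - Xⁿ)^24` over `k` -/
def Eik : k⟦X⟧ := PowerSeries.map (Int.castRingHom k) dedekindEtaUnitInv

/-- `q * j` over `k` -/
def Jk : k⟦X⟧ := PowerSeries.map (Int.castRingHom k) jNum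

theorem Ek_mul_Eik : Ek k * Eik k = 1 := by
  rw [Ek, Eik, ← map_mul, dedekindEtaUnit_mul_inv, map_one]

variable {k}

theorem twist_ofPowerSeries (ξ : kˣ) (f : k⟦X⟧) :
    twist ξ (HahnSeries.ofPowerSeries ℤ k f) =
      HahnSeries.ofPowerSeries ℤ k (PowerSeries.rescale (ξ : k) f) := by
  ext n
  rw [twist_coeff]
  rcases le_or_gt 0 n with hn | hn
  · lift n to ℕ using hn
    rw [HahnSeries.ofPowerSeries_apply_coeff, HahnSeries.ofPowerSeries_apply_coeff,
      PowerSeries.coeff_rescale, zpow_natCast, Units.val_pow_eq_pow_val]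
  · rw [ofPowerSeries_coeff_of_neg _ hn, ofPowerSeries_coeff_of_neg _ hn, mul_zero]

theorem twist_single_one (ξ : kˣ) :
    twist ξ (HahnSeries.single (1 : ℤ) (1 : k)) = HahnSeries.single (1 : ℤ) (ξ : k) := by
  ext n
  rw [twist_coeff, HahnSeries.coeff_single, HahnSeries.coeff_single]
  split_ifs with h
  · subst h; simp
  · simp

theorem single_one_eq (a : k) :
    HahnSeries.single (1 : ℤ) a =
      HahnSeries.single (1 : ℤ) (1 : k) * HahnSeries.ofPowerSeries ℤ k (PowerSeries.C a) := by
  rw [HahnSeries.ofPowerSeries_C, HahnSeries.C_apply, HahnSeries.single_mul_single]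
  simp

variable (k)

theorem deltaS_eq : deltaS k =
    HahnSeries.single (1 : ℤ) (1 : k) * HahnSeries.ofPowerSeries ℤ k (Ek k) := rfl

theorem deltaInvS_eq : deltaInvS k =
    HahnSeries.single (-1 : ℤ) (1 : k) * HahnSeries.ofPowerSeries ℤ k (Eik k) := rfl

theorem jqModC_eq : jqModC k =
    HahnSeries.single (-1 : ℤ) (1 : k) * HahnSeries.ofPowerSeries ℤ k (Jk k) := rfl

variable {k}

theorem unitFin_eq (p : ℕ) [NeZero p] (ξ : kˣ) :
    unitFin p ξ = HahnSeries.single (1 : ℤ) (1 : k) * HahnSeries.single (-(p : ℤ)) (1 : k) *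
      HahnSeries.ofPowerSeries ℤ k
        (PowerSeries.C (ξ : k) * PowerSeries.rescale (ξ : k) (Ek k) *
          PowerSeries.expand p (NeZero.ne p) (Eik k)) := by
  rw [unitFin, deltaS_eq, deltaInvS_eq, map_mul, map_mul, twist_single_one, twist_ofPowerSeries,
    qExpand_single, Fermat.Agent.H42.qExpand_ofPowerSeries_eq_expand, single_one_eq (ξ : k),
    map_mul, map_mul, mul_neg_one]
  ring

variable (k)

theorem unitInf_eq (p : ℕ) [NeZero p] :
    unitInf k p = HahnSeries.single ((p : ℤ) * p) (1 : k) * HahnSeries.single (-(p : ℤ)) (1 : k) *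
      HahnSeries.ofPowerSeries ℤ k
        ((p : k⟦X⟧) ^ 12 * PowerSeries.expand p (NeZero.ne p)
            (PowerSeries.expand p (NeZero.ne p) (Ek k)) *
          PowerSeries.expand p (NeZero.ne p) (Eik k)) := by
  rw [unitInf, deltaS_eq, deltaInvS_eq, map_mul, map_mul, map_mul, qExpand_single, qExpand_single,
    qExpand_single, Fermat.Agent.H42.qExpand_ofPowerSeries_eq_expand,
    Fermat.Agent.H42.qExpand_ofPowerSeries_eq_expand,
    Fermat.Agent.H42.qExpand_ofPowerSeries_eq_expand, map_mul, map_mul, map_pow, map_natCast,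
    mul_one, mul_neg_one]
  ring

theorem baseS_eq (p : ℕ) [NeZero p] :
    baseS k p = HahnSeries.single (-(p : ℤ)) (1 : k) *
      HahnSeries.ofPowerSeries ℤ k (PowerSeries.expand p (NeZero.ne p) (Jk k)) := by
  rw [baseS, jqModC_eq, map_mul, qExpand_single,
    Fermat.Agent.H42.qExpand_ofPowerSeries_eq_expand, mul_neg_one]

variable {k}

/-- order estimate from a divisibility of power series -/
theorem ordGE_of_dvd {m n : ℕ} {S : k⟦X⟧} (h : (X : k⟦X⟧) ^ (m + n) ∣ S) :
    OrdGE (n : ℤ) (HahnSeries.single (-(m : ℤ)) (1 : k) * HahnSeries.ofPowerSeries ℤ k S) := by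
  obtain ⟨r, rfl⟩ := h
  have h1 : HahnSeries.single (-(m : ℤ)) (1 : k) *
      HahnSeries.ofPowerSeries ℤ k (X ^ (m + n) * r) =
      HahnSeries.single (n : ℤ) (1 : k) * HahnSeries.ofPowerSeries ℤ k r := by
    rw [map_mul, map_pow, HahnSeries.ofPowerSeries_X, HahnSeries.single_pow, ← mul_assoc,
      HahnSeries.single_mul_single]
    congr 2
    · simp
    · simp
  rw [h1]
  have := ordGE_mul (ordGE_single (n : ℤ) (1 : k)) (ordGE_ofPowerSeries r)
  simpa using this

end Bridge

end Fermat.Agent.H17.ESD
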