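import Fermat.Agent.H16.FFBasic
import Fermat.Agent.H23.PlaceBasic
import Fermat.Agent.H27.ESD.Interfaces

/-!
# P-ES / ES-D-BR (helper17): place calculus for a function `t` with `x = R(t)`

Generic lemmas on a function field `F / K` (any characteristic unless stated):

* `pc_ord_sub_const_eq_zero` : at a zero of `t - c`, `t - d` is a unit for `d ≠ c`;
* `pc_ord_sub_const_of_pole` : at a pole of `t`, `ord (t - d) = ord t`;
* `pc_transcendental_of_mem`, `pc_finiteDimensional_of_mem`, `pc_isSeparable_of_mem` : if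
  `x ∈ K(t)` then transcendence, finiteness and separability pass from `x` to `t`;
* `pc_poles` : the fundamental identity over the poles of a separating element;
* `pc_finrank_mul` : if the poles of `x` are the zeros of `t` (with `ord x = - a ord t`) and the
  poles of `t` (with `ord x = b ord t`), then `[F : K(x)] = (a + b) [F : K(t)]`.
-/

set_option autoImplicit false
set_option synthInstance.maxHeartbeats 400000
set_option maxHeartbeats 400000

noncomputable section

open AlgebraicCurve IntermediateField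

namespace Fermat.Agent.H17.ESD

open Fermat.Agent.H23

section basic

variable {K F : Type} [Field K] [Field F] [Algebra K F]

theorem pc_ne_zero_of_ord_ne (v : Place K F) {f : F} (h : v.ord f ≠ 0) : f ≠ 0 := by
  rintro rfl
  exact h v.ord_zero

/-- at a zero of `t - c`, `t - d` is a unit for `d ≠ c` -/
theorem pc_ord_sub_const_eq_zero (v : Place K F) (t : F) {c d : K} (hcd : c ≠ d)
    (hc : 0 < v.ord (t - algebraMap K F c)) :
    t - algebraMap K F d ≠ 0 ∧ v.ord (t - algebraMap K F d) = 0 := by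
  have hf : algebraMap K F (c - d) ≠ 0 := by
    rw [Ne, map_eq_zero]
    exact sub_ne_zero.mpr hcd
  have hg : t - algebraMap K F c ≠ 0 := pc_ne_zero_of_ord_ne v hc.ne'
  have h0 : v.ord (algebraMap K F (c - d)) = 0 := ord_algebraMap v _
  have h1 := ord_add_eq_of_lt v hf hg (by rw [h0]; exact hc)
  have h2 : algebraMap K F (c - d) + (t - algebraMap K F c) = t - algebraMap K F d := by
    rw [map_sub]
    ring
  rw [h2, h0] at h1
  refine ⟨?_, h1⟩
  intro h3
  rw [h3] at h2
  have h4 : t - algebraMap K F c = -algebraMap K F (c - d) := by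
    linear_combination h2
  rw [h4, ord_neg, h0] at hc
  exact lt_irrefl _ hc

/-- at a pole of `t`, `ord (t - d) = ord t` -/
theorem pc_ord_sub_const_of_pole (v : Place K F) (t : F) (d : K) (h : v.ord t < 0) :
    t - algebraMap K F d ≠ 0 ∧ v.ord (t - algebraMap K F d) = v.ord t := by
  have ht : t ≠ 0 := pc_ne_zero_of_ord_ne v h.ne
  by_cases hd : d = 0
  · subst hd
    rw [map_zero, sub_zero]
    exact ⟨ht, rfl⟩
  · have hg : -algebraMap K F d ≠ 0 := by
      rw [neg_ne_zero, Ne, map_eq_zero]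
      exact hd
    have h0 : v.ord (-algebraMap K F d) = 0 := by
      rw [ord_neg]
      exact ord_algebraMap v _
    have h1 := ord_add_eq_of_lt v ht hg (by rw [h0]; exact h)
    rw [← sub_eq_add_neg] at h1
    exact ⟨pc_ne_zero_of_ord_ne v (by rw [h1]; exact h.ne), h1⟩

/-- a function of nonnegative order plus a constant has nonnegative order -/
theorem pc_ord_sub_const_nonneg (v : Place K F) (t : F) (d : K) (h : 0 ≤ v.ord t) :
    0 ≤ v.ord (t - algebraMap K F d) := by
  have h1 : t ∈ v.toValuationSubring := mem_of_ord_nonneg v h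
  exact ord_nonneg_of_mem v (sub_mem h1 (v.algebraMap_mem' d))

theorem pc_ord_pow (v : Place K F) (f : F) (n : ℕ) : v.ord (f ^ n) = n * v.ord f := by
  have := v.ord_zpow f (n : ℤ)
  simpa using this

end basic

section tower

variable {K F : Type} [Field K] [Field F] [Algebra K F]

theorem pc_adjoin_le_of_mem {x t : F} (h : x ∈ K⟮t⟯) : K⟮x⟯ ≤ K⟮t⟯ := by
  rw [adjoin_le_iff]
  rintro y hy
  rw [Set.mem_singleton_iff] at hy
  rw [hy]
  exact h

/-- transcendence passes from `x ∈ K(t)` to `t` -/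
theorem pc_transcendental_of_mem {x t : F} (h : x ∈ K⟮t⟯) (hx : Transcendental K x) :
    Transcendental K t := by
  intro ht
  apply hx
  have halg : Algebra.IsAlgebraic K K⟮t⟯ := isAlgebraic_adjoin_simple ht.isIntegral
  have h1 : IsAlgebraic K (⟨x, h⟩ : K⟮t⟯) := Algebra.IsAlgebraic.isAlgebraic _
  have h2 := h1.algebraMap (A := F)
  exact h2

/-- finiteness passes from `x ∈ K(t)` to `t` -/
theorem pc_finiteDimensional_of_mem {x t : F} (h : x ∈ K⟮t⟯) [FiniteDimensional K⟮x⟯ F] :
    FiniteDimensional K⟮t⟯ F := by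
  have hle := pc_adjoin_le_of_mem h
  have h1 := relfinrank_mul_finrank_top hle
  have h2 : 0 < Module.finrank K⟮x⟯ F := Module.finrank_pos
  rw [← h1] at h2
  exact Module.finite_of_finrank_pos (Nat.pos_of_mul_pos_left h2)

/-- separability passes from `x ∈ K(t)` to `t` -/
theorem pc_isSeparable_of_mem {x t : F} (h : x ∈ K⟮t⟯) [Algebra.IsSeparable K⟮x⟯ F] :
    Algebra.IsSeparable K⟮t⟯ F := by
  have hle := pc_adjoin_le_of_mem h
  let _ : Algebra K⟮x⟯ K⟮t⟯ := (inclusion hle).toRingHom.toAlgebra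
  have : IsScalarTower K⟮x⟯ K⟮t⟯ F := IsScalarTower.of_algebraMap_eq (fun _ => rfl)
  exact Algebra.isSeparable_tower_top_of_isSeparable K⟮x⟯ K⟮t⟯ F

/-- the degree of `x` is a multiple of the degree of `t` when `x ∈ K(t)` -/
theorem pc_finrank_dvd_of_mem {x t : F} (h : x ∈ K⟮t⟯) :
    Module.finrank K⟮t⟯ F ∣ Module.finrank K⟮x⟯ F := by
  have h1 := relfinrank_mul_finrank_top (pc_adjoin_le_of_mem h)
  exact ⟨_, by rw [← h1, mul_comm]⟩

end tower

section count

variable {K F : Type} [Field K] [Field F] [Algebra K F] [IsAlgClosed K]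

/-- the fundamental identity over the poles of a separating element -/
theorem pc_poles (x : F) (hx : Transcendental K x)
    [FiniteDimensional K⟮x⟯ F] [Algebra.IsSeparable K⟮x⟯ F] :
    {v : Place K F | v.ord x < 0}.Finite ∧
      ∑ᶠ v ∈ {v : Place K F | v.ord x < 0}, (-(v.ord x)) = (Module.finrank K⟮x⟯ F : ℤ) := by
  have hft' : Transcendental K x⁻¹ := by
    intro h
    apply hx
    have := h.inv
    rwa [inv_inv] at this
  have hinv : K⟮x⁻¹⟯ = K⟮x⟯ := Fermat.Agent.H16.ffb_adjoin_simple_inv x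
  have h1 : ∀ (E : IntermediateField K F), E = K⟮x⟯ → K⟮x⁻¹⟯ = E →
      {v : Place K F | 0 < v.ord x⁻¹}.Finite ∧
      ∑ᶠ v ∈ {v : Place K F | 0 < v.ord x⁻¹}, v.ord x⁻¹ = (Module.finrank E F : ℤ) := by
    intro E hE hE'
    subst hE'
    have : FiniteDimensional K⟮x⁻¹⟯ F := hE ▸ (inferInstance : FiniteDimensional K⟮x⟯ F)
    have : Algebra.IsSeparable K⟮x⁻¹⟯ F := hE ▸ (inferInstance : Algebra.IsSeparable K⟮x⟯ F)
    exact Fermat.Agent.H16.ffb_fundamentalIdentity_zeros x⁻¹ hft'
  have h2 := h1 K⟮x⟯ rfl hinv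
  have hset : {v : Place K F | 0 < v.ord x⁻¹} = {v : Place K F | v.ord x < 0} := by
    ext v
    simp only [Set.mem_setOf_eq, v.ord_inv]
    omega
  rw [hset] at h2
  refine ⟨h2.1, ?_⟩
  rw [← h2.2]
  exact finsum_mem_congr rfl fun v _ => (v.ord_inv x).symm

/-- **degree formula.**  If `ord x = - a ord t` at the zeros of `t`, `ord x = b ord t` at the
poles of `t` and `x` has no pole elsewhere, then `[F : K(x)] = (a + b) [F : K(t)]`. -/
theorem pc_finrank_mul (x t : F) (hx : Transcendental K x) (ht : Transcendental K t)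
    [FiniteDimensional K⟮x⟯ F] [Algebra.IsSeparable K⟮x⟯ F]
    [FiniteDimensional K⟮t⟯ F] [Algebra.IsSeparable K⟮t⟯ F]
    (a b : ℕ) (ha : 0 < a) (hb : 0 < b)
    (hzero : ∀ v : Place K F, 0 < v.ord t → v.ord x = -((a : ℤ) * v.ord t))
    (hpole : ∀ v : Place K F, v.ord t < 0 → v.ord x = (b : ℤ) * v.ord t)
    (hunit : ∀ v : Place K F, v.ord t = 0 → 0 ≤ v.ord x) :
    Module.finrank K⟮x⟯ F = (a + b) * Module.finrank K⟮t⟯ F := by
  obtain ⟨hZfin, hZ⟩ := Fermat.Agent.H16.ffb_fundamentalIdentity_zeros t ht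
  obtain ⟨hPfin, hP⟩ := pc_poles t ht
  obtain ⟨hXfin, hX⟩ := pc_poles x hx
  have hset : {v : Place K F | v.ord x < 0} =
      {v : Place K F | 0 < v.ord t} ∪ {v : Place K F | v.ord t < 0} := by
    ext v
    simp only [Set.mem_setOf_eq, Set.mem_union]
    constructor
    · intro h
      rcases lt_trichotomy (v.ord t) 0 with h1 | h1 | h1
      · exact Or.inr h1
      · have := hunit v h1
        omega
      · exact Or.inl h1
    · rintro (h | h)
      · rw [hzero v h]
        have : 0 < (a : ℤ) * v.ord t := mul_pos (by exact_mod_cast ha) h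
        omega
      · rw [hpole v h]
        exact mul_neg_of_pos_of_neg (by exact_mod_cast hb) h
  have hdisj : Disjoint {v : Place K F | 0 < v.ord t} {v : Place K F | v.ord t < 0} := by
    rw [Set.disjoint_left]
    intro v h1 h2
    simp only [Set.mem_setOf_eq] at h1 h2
    omega
  have h1 : ∑ᶠ v ∈ {v : Place K F | 0 < v.ord t}, (-(v.ord x)) =
      (a : ℤ) * Module.finrank K⟮t⟯ F := by
    rw [← hZ, mul_finsum_mem]
    refine finsum_mem_congr rfl fun v hv => ?_
    rw [hzero v hv, neg_neg]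
  have h2 : ∑ᶠ v ∈ {v : Place K F | v.ord t < 0}, (-(v.ord x)) =
      (b : ℤ) * Module.finrank K⟮t⟯ F := by
    rw [← hP, mul_finsum_mem]
    refine finsum_mem_congr rfl fun v hv => ?_
    rw [hpole v hv, mul_neg]
  have h3 : (Module.finrank K⟮x⟯ F : ℤ) = ((a + b : ℕ) : ℤ) * Module.finrank K⟮t⟯ F := by
    rw [← hX, hset, finsum_mem_union hdisj hZfin hPfin, h1, h2]
    push_cast
    ring
  exact_mod_cast h3

end count

end Fermat.Agent.H17.ESD

end
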