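import Fermat.Agent.H17.ESD.PsiTwo

/-!
# P-ES / ES-D-BR (helper17): the unit equation at `p = 3`

`u = 3^12 Δ(q³)/Δ(q)` satisfies
`u⁴ - 756 u³ + (72 j + 19926) u² - (j² - 1512 j + 177876) u + 531441 = 0`,
i.e. `(u² + 270 u + 729)² = u (36 u + 756 - j)²`.  Consequently
`t₃ = q⁻¹ ∏ (1-qⁿ)^12/(1-q^{3n})^12` satisfies `j t₃³ = (t₃ + 27) (t₃ + 243)³`.
-/

set_option autoImplicit false
set_option maxHeartbeats 1000000

noncomputable section

open PowerSeries ModularCurve Fermat.Agent.H27 Fermat.Agent.H9 Fermat.Agent.H17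

namespace Fermat.Agent.H17.ESD

/-! ### symmetric functions of the three twists -/

section Sym

variable {R : Type*} [CommRing R]

theorem cube_sym1 (x y z c : R) (hc : c ^ 2 + c + 1 = 0) :
    (1 * x + 1 ^ 2 * y + z) + (c * x + c ^ 2 * y + z) + (c ^ 2 * x + (c ^ 2) ^ 2 * y + z) =
      3 * z := by
  linear_combination ((1) * y + (-1) * y * c + (1) * y * c ^ 2 + (1) * x) * hc

theorem cube_sym2 (x y z c : R) (hc : c ^ 2 + c + 1 = 0) :
    (1 * x + 1 ^ 2 * y + z) * (c * x + c ^ 2 * y + z) +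
      (1 * x + 1 ^ 2 * y + z) * (c ^ 2 * x + (c ^ 2) ^ 2 * y + z) +
      (c * x + c ^ 2 * y + z) * (c ^ 2 * x + (c ^ 2) ^ 2 * y + z) =
      3 * z ^ 2 - 3 * x * y := by
  linear_combination ((2) * y * z + (-2) * y * z * c + (2) * y * z * c ^ 2 + (1) * y ^ 2 * c ^ 2 + (-1) * y ^ 2 * c ^ 3 + (1) * y ^ 2 * c ^ 4 + (2) * x * z + (3) * x * y + (-2) * x * y * c + (1) * x * y * c ^ 2 + (1) * x * y * c ^ 3 + (1) * x ^ 2 * c) * hc

theorem cube_sym3 (x y z c : R) (hc : c ^ 2 + c + 1 = 0) :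
    (1 * x + 1 ^ 2 * y + z) * (c * x + c ^ 2 * y + z) * (c ^ 2 * x + (c ^ 2) ^ 2 * y + z) =
      x ^ 3 + y ^ 3 + z ^ 3 - 3 * x * y * z := by
  linear_combination ((1) * y * z ^ 2 + (-1) * y * z ^ 2 * c + (1) * y * z ^ 2 * c ^ 2 + (1) * y ^ 2 * z * c ^ 2 + (-1) * y ^ 2 * z * c ^ 3 + (1) * y ^ 2 * z * c ^ 4 + (-1) * y ^ 3 + (1) * y ^ 3 * c + (-1) * y ^ 3 * c ^ 3 + (1) * y ^ 3 * c ^ 4 + (1) * x * z ^ 2 + (3) * x * y * z + (-2) * x * y * z * c + (1) * x * y * z * c ^ 2 + (1) * x * y * z * c ^ 3 + (1) * x * y ^ 2 * c ^ 4 + (1) * x ^ 2 * z * c + (1) * x ^ 2 * y * c ^ 3 + (-1) * x ^ 3 + (1) * x ^ 3 * c) * hc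

theorem quartic_expand (a b c d : R) :
    (Polynomial.X - Polynomial.C a) * ((Polynomial.X - Polynomial.C b) *
      (Polynomial.X - Polynomial.C c) * (Polynomial.X - Polynomial.C d)) =
    Polynomial.X ^ 4 + Polynomial.C (-(a + (b + c + d))) * Polynomial.X ^ 3 +
      Polynomial.C (a * (b + c + d) + (b * c + b * d + c * d)) * Polynomial.X ^ 2 +
      Polynomial.C (-(a * (b * c + b * d + c * d) + b * c * d)) * Polynomial.X +
      Polynomial.C (a * (b * c * d)) := by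
  simp only [map_neg, map_add, map_mul]
  ring

theorem quartic_coeff (a b c d : R) :
    ((Polynomial.X - Polynomial.C a) * ((Polynomial.X - Polynomial.C b) *
      (Polynomial.X - Polynomial.C c) * (Polynomial.X - Polynomial.C d))).coeff 3 =
        -(a + (b + c + d)) ∧
    ((Polynomial.X - Polynomial.C a) * ((Polynomial.X - Polynomial.C b) *
      (Polynomial.X - Polynomial.C c) * (Polynomial.X - Polynomial.C d))).coeff 2 =
        a * (b + c + d) + (b * c + b * d + c * d) ∧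
    ((Polynomial.X - Polynomial.C a) * ((Polynomial.X - Polynomial.C b) *
      (Polynomial.X - Polynomial.C c) * (Polynomial.X - Polynomial.C d))).coeff 1 =
        -(a * (b * c + b * d + c * d) + b * c * d) ∧
    ((Polynomial.X - Polynomial.C a) * ((Polynomial.X - Polynomial.C b) *
      (Polynomial.X - Polynomial.C c) * (Polynomial.X - Polynomial.C d))).coeff 0 =
        a * (b * c * d) := by
  rw [quartic_expand]
  refine ⟨?_, ?_, ?_, ?_⟩ <;>
    simp only [Polynomial.coeff_add, Polynomial.coeff_C_mul, Polynomial.coeff_X_pow,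
      Polynomial.coeff_X, Polynomial.coeff_C] <;> norm_num

end Sym

/-! ### truncations over `ℂ` -/

theorem Ek_trunc7 : PSC 7 (Ek ℂ)
    ((1) + (-24) * X + (252) * X ^ 2 + (-1472) * X ^ 3 + (4830) * X ^ 4 + (-6048) * X ^ 5 +
      (-16744) * X ^ 6 : ℂ⟦X⟧) := by
  have h := dedekindEtaUnit_trunc.map (Int.castRingHom ℂ)
  simpa only [Ek, map_add, map_mul, map_pow, map_neg, map_one, map_ofNat, PowerSeries.map_X]
    using h

theorem expand_three_Eik_trunc :
    PSC 7 (PowerSeries.expand 3 (by norm_num) (Eik ℂ))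
      ((1) + (24) * X ^ 3 + (324) * X ^ 6 : ℂ⟦X⟧) := by
  have h := (Eik_trunc3.expand 3 (by norm_num)).mono (show 7 ≤ 3 * 3 by norm_num)
  simp only [map_add, map_mul, map_pow, map_one, map_ofNat, PowerSeries.expand_X] at h
  exact h.congr_right (by ring)

theorem expand_three_Jk_trunc :
    PSC 7 (PowerSeries.expand 3 (by norm_num) (Jk ℂ))
      ((1) + (744) * X ^ 3 + (196884) * X ^ 6 : ℂ⟦X⟧) := by
  have h := (Jk_trunc3.expand 3 (by norm_num)).mono (show 7 ≤ 3 * 3 by norm_num)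
  simp only [map_add, map_mul, map_pow, map_one, map_ofNat, PowerSeries.expand_X] at h
  exact h.congr_right (by ring)

/-- the power series part of the finite units at `p = 3` -/
def B3 (ξ : ℂ) : ℂ⟦X⟧ :=
  PowerSeries.C ξ * PowerSeries.rescale ξ (Ek ℂ) * PowerSeries.expand 3 (by norm_num) (Eik ℂ)

/-- the power series part of the unit at infinity at `p = 3` -/
def U3 : ℂ⟦X⟧ :=
  ((3 : ℕ) : ℂ⟦X⟧) ^ 12 * PowerSeries.expand 3 (by norm_num)
    (PowerSeries.expand 3 (by norm_num) (Ek ℂ)) * PowerSeries.expand 3 (by norm_num) (Eik ℂ)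

theorem B3_trunc (ξ : ℂ) (hξ : ξ ^ 3 = 1) :
    PSC 7 (B3 ξ) (PowerSeries.C ξ * ((1) + (-1448) * X ^ 3 + (-51748) * X ^ 6) + PowerSeries.C ξ ^ 2 * ((-24) * X + (4254) * X ^ 4) +
      ((252) * X ^ 2) : ℂ⟦X⟧) := by
  have hc : (PowerSeries.C ξ : ℂ⟦X⟧) ^ 3 = 1 := by rw [← map_pow, hξ, map_one]
  have h := ((PSC.refl 7 (PowerSeries.C ξ : ℂ⟦X⟧)).mul (Ek_trunc7.rescale ξ)).mul
    expand_three_Eik_trunc
  rw [B3]
  refine PSC.reduce ((108144) * PowerSeries.C ξ ^ 2 + (-63504) * X + (-878784) * X ^ 2 * PowerSeries.C ξ + (1564920) * X ^ 3 * PowerSeries.C ξ ^ 2 + (-1959552) * X ^ 4 + (-5425056) * X ^ 5 * PowerSeries.C ξ) h ?_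
  simp only [map_add, map_mul, map_pow, map_neg, map_one, map_ofNat, PowerSeries.rescale_X]
  linear_combination ((252) * X ^ 2 + (-1472) * X ^ 3 * PowerSeries.C ξ + (4830) * X ^ 4 * PowerSeries.C ξ ^ 2 + (-6048) * X ^ 5 * PowerSeries.C ξ ^ 3 + (-52072) * X ^ 6 * PowerSeries.C ξ + (-16744) * X ^ 6 * PowerSeries.C ξ ^ 4 + (115920) * X ^ 7 * PowerSeries.C ξ ^ 2 + (-63504) * X ^ 8 + (-145152) * X ^ 8 * PowerSeries.C ξ ^ 3 + (-878784) * X ^ 9 * PowerSeries.C ξ + (-401856) * X ^ 9 * PowerSeries.C ξ ^ 4 + (1564920) * X ^ 10 * PowerSeries.C ξ ^ 2 + (-1959552) * X ^ 11 + (-1959552) * X ^ 11 * PowerSeries.C ξ ^ 3 + (-5425056) * X ^ 12 * PowerSeries.C ξ + (-5425056) * X ^ 12 * PowerSeries.C ξ ^ 4) * hc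

theorem U3_trunc : PSC 1 U3 ((531441 : ℂ⟦X⟧)) := by
  have hE : PSC 1 (Ek ℂ) (1 : ℂ⟦X⟧) :=
    PSC.reduce ((-24) + (252) * X) (Ek_trunc3.mono (show 1 ≤ 3 by norm_num)) (by ring)
  have hEi : PSC 1 (Eik ℂ) (1 : ℂ⟦X⟧) :=
    PSC.reduce ((24) + (324) * X) (Eik_trunc3.mono (show 1 ≤ 3 by norm_num)) (by ring)
  have h1 := ((hE.expand 3 (by norm_num)).expand 3 (by norm_num)).mono
    (show 1 ≤ 3 * (3 * 1) by norm_num)
  have h2 := (hEi.expand 3 (by norm_num)).mono (show 1 ≤ 3 * 1 by norm_num)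
  have h3 := ((PSC.refl 1 (((3 : ℕ) : ℂ⟦X⟧) ^ 12)).mul h1).mul h2
  rw [U3]
  refine h3.congr_right ?_
  simp only [map_one, mul_one]
  norm_num

/-- the primitive cube root of unity used by the Igusa library -/
abbrev zeta3 : ℂ := ((zetaC 3 : ℂˣ) : ℂ)

theorem zeta3_pow : zeta3 ^ 3 = 1 := (isPrimitiveRoot_zetaC 3).pow_eq_one

theorem zeta3_rel : zeta3 ^ 2 + zeta3 + 1 = 0 := by
  have h1 : zeta3 ≠ 1 := (isPrimitiveRoot_zetaC 3).ne_one (by norm_num)
  have h2 : (zeta3 - 1) * (zeta3 ^ 2 + zeta3 + 1) = 0 := by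
    linear_combination zeta3_pow
  rcases mul_eq_zero.mp h2 with h | h
  · exact absurd (sub_eq_zero.mp h) h1
  · exact h

theorem zeta3_sq_pow : (zeta3 ^ 2) ^ 3 = 1 := by
  rw [← pow_mul, mul_comm, pow_mul, zeta3_pow, one_pow]

theorem C_zeta3_rel :
    (PowerSeries.C zeta3 : ℂ⟦X⟧) ^ 2 + PowerSeries.C zeta3 + 1 = 0 := by
  rw [← map_pow, ← map_add, ← map_one (PowerSeries.C (R := ℂ)), ← map_add, zeta3_rel, map_zero]

theorem B3_forms :
    PSC 7 (B3 1) (1 * ((1) + (-1448) * X ^ 3 + (-51748) * X ^ 6) + 1 ^ 2 * ((-24) * X + (4254) * X ^ 4) + ((252) * X ^ 2) : ℂ⟦X⟧) ∧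
    PSC 7 (B3 zeta3) (PowerSeries.C zeta3 * ((1) + (-1448) * X ^ 3 + (-51748) * X ^ 6) +
      PowerSeries.C zeta3 ^ 2 * ((-24) * X + (4254) * X ^ 4) + ((252) * X ^ 2) : ℂ⟦X⟧) ∧
    PSC 7 (B3 (zeta3 ^ 2)) (PowerSeries.C zeta3 ^ 2 * ((1) + (-1448) * X ^ 3 + (-51748) * X ^ 6) +
      (PowerSeries.C zeta3 ^ 2) ^ 2 * ((-24) * X + (4254) * X ^ 4) + ((252) * X ^ 2) : ℂ⟦X⟧) := by
  refine ⟨?_, B3_trunc zeta3 zeta3_pow, ?_⟩
  · have h := B3_trunc 1 (one_pow 3)
    rwa [map_one] at h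
  · have h := B3_trunc (zeta3 ^ 2) zeta3_sq_pow
    rwa [map_pow] at h

theorem S1_trunc : PSC 7 (B3 1 + B3 zeta3 + B3 (zeta3 ^ 2)) ((756) * X ^ 2 : ℂ⟦X⟧) := by
  obtain ⟨h0, h1, h2⟩ := B3_forms
  refine ((h0.add h1).add h2).congr_right ?_
  rw [cube_sym1 _ _ _ _ C_zeta3_rel]
  ring

theorem S2_trunc :
    PSC 7 (B3 1 * B3 zeta3 + B3 1 * B3 (zeta3 ^ 2) + B3 zeta3 * B3 (zeta3 ^ 2))
      ((72) * X + (73494) * X ^ 4 : ℂ⟦X⟧) := by
  obtain ⟨h0, h1, h2⟩ := B3_forms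
  refine PSC.reduce ((14753520) + (660407976) * X ^ 3) (((h0.mul h1).add (h0.mul h2)).add (h1.mul h2)) ?_
  rw [cube_sym2 _ _ _ _ C_zeta3_rel]
  ring

theorem S3_trunc :
    PSC 7 (B3 1 * B3 zeta3 * B3 (zeta3 ^ 2)) ((1) + (-24) * X ^ 3 + (252) * X ^ 6 : ℂ⟦X⟧) := by
  obtain ⟨h0, h1, h2⟩ := B3_forms
  refine PSC.reduce ((-171502880) * X ^ 2 + (-74061760248) * X ^ 5 + (-11632604309376) * X ^ 8 + (-138573666620992) * X ^ 11) ((h0.mul h1).mul h2) ?_
  rw [cube_sym3 _ _ _ _ C_zeta3_rel]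
  ring

end Fermat.Agent.H17.ESD

/-! ### the Laurent series at `p = 3` -/

namespace Fermat.Agent.H17.ESD

theorem unitInf_three : unitInf ℂ 3 = tL ^ 6 * HahnSeries.ofPowerSeries ℤ ℂ U3 := by
  rw [unitInf_eq ℂ 3, HahnSeries.single_mul_single, mul_one,
    show ((3 : ℕ) : ℤ) * (3 : ℕ) + -((3 : ℕ) : ℤ) = 6 by norm_num, single_eq_tL_zpow,
    zpow_ofNat]
  rfl

theorem unitFin_three (ξ : ℂˣ) :
    unitFin 3 ξ = (tL ^ 2)⁻¹ * HahnSeries.ofPowerSeries ℤ ℂ (B3 (ξ : ℂ)) := by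
  rw [unitFin_eq 3 ξ, HahnSeries.single_mul_single, mul_one,
    show (1 : ℤ) + -((3 : ℕ) : ℤ) = -2 by norm_num, single_eq_tL_zpow, zpow_neg, zpow_ofNat]
  rfl

theorem baseS_three : baseS ℂ 3 =
    (tL ^ 3)⁻¹ * HahnSeries.ofPowerSeries ℤ ℂ (PowerSeries.expand 3 (by norm_num) (Jk ℂ)) := by
  rw [baseS_eq ℂ 3, single_eq_tL_zpow, show -((3 : ℕ) : ℤ) = -3 by norm_num, zpow_neg,
    zpow_ofNat]

theorem symPhi_uFo_three : symPhi (uFo 3 (zetaC 3)) =
    (Polynomial.X - Polynomial.C (unitInf ℂ 3)) *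
      ((Polynomial.X - Polynomial.C (unitFin 3 (1 : ℂˣ))) *
        (Polynomial.X - Polynomial.C (unitFin 3 (zetaC 3))) *
        (Polynomial.X - Polynomial.C (unitFin 3 (zetaC 3 ^ 2)))) := by
  rw [symPhi_uFo_factor, Finset.prod_range_succ, Finset.prod_range_succ, Finset.prod_range_succ,
    Finset.prod_range_zero, one_mul, pow_zero, pow_one]

theorem psi3_coeff_three :
    (symPhi (uFo 3 (zetaC 3))).coeff 3 = evalAt (baseS ℂ 3) (Polynomial.C (-756)) := by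
  haveI : Fact (Nat.Prime 3) := ⟨Nat.prime_three⟩
  apply symPhi_coeff_eq_of_ordGE 3 3
  have key : (symPhi (uFo 3 (zetaC 3))).coeff 3 - evalAt (baseS ℂ 3) (Polynomial.C (-756)) =
      HahnSeries.single (-((2 : ℕ) : ℤ)) (1 : ℂ) * HahnSeries.ofPowerSeries ℤ ℂ
        (-(X ^ 8 * U3 + (B3 1 + B3 zeta3 + B3 (zeta3 ^ 2))) + 756 * X ^ 2) := by
    rw [symPhi_uFo_three, (quartic_coeff _ _ _ _).1, unitInf_three, unitFin_three,
      unitFin_three, unitFin_three, Units.val_one, Units.val_pow_eq_pow_val, evalAt_C,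
      single_eq_tL_zpow]
    simp only [map_sub, map_neg, map_add, map_mul, map_pow, map_ofNat,
      HahnSeries.ofPowerSeries_X, Nat.cast_ofNat, zpow_neg, zpow_ofNat, Int.cast_neg,
      Int.cast_ofNat]
    have ht := tL_ne_zero
    field_simp
    ring
  rw [key]
  have h2 : PSC 3 (-(X ^ 8 * U3 + (B3 1 + B3 zeta3 + B3 (zeta3 ^ 2))) + 756 * X ^ 2) 0 :=
    (((((PSC.X_pow_mul 8 U3).mono (show 3 ≤ 8 by norm_num)).add
      (S1_trunc.mono (show 3 ≤ 7 by norm_num))).neg).add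
        (PSC.refl 3 (756 * X ^ 2))).congr_right (by ring)
  exact ordGE_of_dvd (m := 2) (n := 1) h2.dvd_of_zero

theorem psi3_coeff_two :
    (symPhi (uFo 3 (zetaC 3))).coeff 2 =
      evalAt (baseS ℂ 3) (Polynomial.C 72 * Polynomial.X + Polynomial.C 19926) := by
  haveI : Fact (Nat.Prime 3) := ⟨Nat.prime_three⟩
  apply symPhi_coeff_eq_of_ordGE 3 2
  have key : (symPhi (uFo 3 (zetaC 3))).coeff 2 -
      evalAt (baseS ℂ 3) (Polynomial.C 72 * Polynomial.X + Polynomial.C 19926) =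
      HahnSeries.single (-((4 : ℕ) : ℤ)) (1 : ℂ) * HahnSeries.ofPowerSeries ℤ ℂ
        (X ^ 8 * (U3 * (B3 1 + B3 zeta3 + B3 (zeta3 ^ 2))) +
          (B3 1 * B3 zeta3 + B3 1 * B3 (zeta3 ^ 2) + B3 zeta3 * B3 (zeta3 ^ 2)) -
          72 * X * PowerSeries.expand 3 (by norm_num) (Jk ℂ) - 19926 * X ^ 4) := by
    rw [symPhi_uFo_three, (quartic_coeff _ _ _ _).2.1, unitInf_three, unitFin_three,
      unitFin_three, unitFin_three, Units.val_one, Units.val_pow_eq_pow_val, map_add, map_mul,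
      evalAt_C, evalAt_C, evalAt_X, baseS_three, single_eq_tL_zpow]
    simp only [map_sub, map_neg, map_add, map_mul, map_pow, map_ofNat,
      HahnSeries.ofPowerSeries_X, Nat.cast_ofNat, zpow_neg, zpow_ofNat, Int.cast_ofNat]
    have ht := tL_ne_zero
    field_simp
    ring
  rw [key]
  have h2 : PSC 5 (X ^ 8 * (U3 * (B3 1 + B3 zeta3 + B3 (zeta3 ^ 2))) +
          (B3 1 * B3 zeta3 + B3 1 * B3 (zeta3 ^ 2) + B3 zeta3 * B3 (zeta3 ^ 2)) -
          72 * X * PowerSeries.expand 3 (by norm_num) (Jk ℂ) - 19926 * X ^ 4) 0 :=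
    (PSC.reduce ((-14175648))
      (((((PSC.X_pow_mul 8 (U3 * (B3 1 + B3 zeta3 + B3 (zeta3 ^ 2)))).mono
        (show 7 ≤ 8 by norm_num)).add S2_trunc).sub
          ((PSC.refl 7 (72 * X)).mul expand_three_Jk_trunc)).sub
            (PSC.refl 7 (19926 * X ^ 4))) (by ring)).mono (show 5 ≤ 7 by norm_num)
  exact ordGE_of_dvd (m := 4) (n := 1) h2.dvd_of_zero

theorem psi3_coeff_one :
    (symPhi (uFo 3 (zetaC 3))).coeff 1 =
      evalAt (baseS ℂ 3)
        (-(Polynomial.X ^ 2 - Polynomial.C 1512 * Polynomial.X + Polynomial.C 177876)) := by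
  haveI : Fact (Nat.Prime 3) := ⟨Nat.prime_three⟩
  apply symPhi_coeff_eq_of_ordGE 3 1
  have key : (symPhi (uFo 3 (zetaC 3))).coeff 1 -
      evalAt (baseS ℂ 3)
        (-(Polynomial.X ^ 2 - Polynomial.C 1512 * Polynomial.X + Polynomial.C 177876)) =
      HahnSeries.single (-((6 : ℕ) : ℤ)) (1 : ℂ) * HahnSeries.ofPowerSeries ℤ ℂ
        (-(X ^ 8 * (U3 * (B3 1 * B3 zeta3 + B3 1 * B3 (zeta3 ^ 2) + B3 zeta3 * B3 (zeta3 ^ 2))) +
            B3 1 * B3 zeta3 * B3 (zeta3 ^ 2)) +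
          PowerSeries.expand 3 (by norm_num) (Jk ℂ) * PowerSeries.expand 3 (by norm_num) (Jk ℂ) -
          1512 * X ^ 3 * PowerSeries.expand 3 (by norm_num) (Jk ℂ) + 177876 * X ^ 6) := by
    rw [symPhi_uFo_three, (quartic_coeff _ _ _ _).2.2.1, unitInf_three, unitFin_three,
      unitFin_three, unitFin_three, Units.val_one, Units.val_pow_eq_pow_val, map_neg, map_add,
      map_sub, map_mul, map_pow, evalAt_C, evalAt_C, evalAt_X, baseS_three, single_eq_tL_zpow]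
    simp only [map_sub, map_neg, map_add, map_mul, map_pow, map_ofNat,
      HahnSeries.ofPowerSeries_X, Nat.cast_ofNat, zpow_neg, zpow_ofNat, Int.cast_ofNat]
    have ht := tL_ne_zero
    field_simp
    ring
  rw [key]
  have h2 : PSC 7 (-(X ^ 8 * (U3 * (B3 1 * B3 zeta3 + B3 1 * B3 (zeta3 ^ 2) +
            B3 zeta3 * B3 (zeta3 ^ 2))) + B3 1 * B3 zeta3 * B3 (zeta3 ^ 2)) +
          PowerSeries.expand 3 (by norm_num) (Jk ℂ) * PowerSeries.expand 3 (by norm_num) (Jk ℂ) -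
          1512 * X ^ 3 * PowerSeries.expand 3 (by norm_num) (Jk ℂ) + 177876 * X ^ 6) 0 :=
    PSC.reduce ((-4725216) * X ^ 2 + (38763309456) * X ^ 5)
      (((((((PSC.X_pow_mul 8 (U3 * (B3 1 * B3 zeta3 + B3 1 * B3 (zeta3 ^ 2) +
            B3 zeta3 * B3 (zeta3 ^ 2)))).mono (show 7 ≤ 8 by norm_num)).add S3_trunc).neg).add
          (expand_three_Jk_trunc.mul expand_three_Jk_trunc)).sub
            ((PSC.refl 7 (1512 * X ^ 3)).mul expand_three_Jk_trunc)).add
              (PSC.refl 7 (177876 * X ^ 6))) (by ring)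
  exact ordGE_of_dvd (m := 6) (n := 1) h2.dvd_of_zero

theorem psi3_coeff_zero :
    (symPhi (uFo 3 (zetaC 3))).coeff 0 = evalAt (baseS ℂ 3) (Polynomial.C 531441) := by
  haveI : Fact (Nat.Prime 3) := ⟨Nat.prime_three⟩
  apply symPhi_coeff_eq_of_ordGE 3 0
  have key : (symPhi (uFo 3 (zetaC 3))).coeff 0 - evalAt (baseS ℂ 3) (Polynomial.C 531441) =
      HahnSeries.single (-((0 : ℕ) : ℤ)) (1 : ℂ) * HahnSeries.ofPowerSeries ℤ ℂ
        (U3 * (B3 1 * B3 zeta3 * B3 (zeta3 ^ 2)) - 531441) := by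
    rw [symPhi_uFo_three, (quartic_coeff _ _ _ _).2.2.2, unitInf_three, unitFin_three,
      unitFin_three, unitFin_three, Units.val_one, Units.val_pow_eq_pow_val, evalAt_C,
      single_eq_tL_zpow]
    simp only [map_sub, map_neg, map_add, map_mul, map_pow, map_ofNat,
      HahnSeries.ofPowerSeries_X, Nat.cast_zero, neg_zero, zpow_zero, Int.cast_ofNat, one_mul]
    have ht := tL_ne_zero
    field_simp
  rw [key]
  have h2 : PSC 1 (U3 * (B3 1 * B3 zeta3 * B3 (zeta3 ^ 2)) - 531441) 0 :=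
    PSC.reduce ((-12754584) * X ^ 2 + (133923132) * X ^ 5)
      ((U3_trunc.mul (S3_trunc.mono (show 1 ≤ 7 by norm_num))).sub (PSC.refl 1 531441))
      (by ring)
  exact ordGE_of_dvd (m := 0) (n := 1) h2.dvd_of_zero

end Fermat.Agent.H17.ESD

/-! ### the unit equation at `p = 3` -/

namespace Fermat.Agent.H17.ESD

/-- **the unit equation at `p = 3`** in the variable `t` (`q = t³`) -/
theorem unitInf_three_quartic :
    unitInf ℂ 3 ^ 4 - 756 * unitInf ℂ 3 ^ 3 + (72 * baseS ℂ 3 + 19926) * unitInf ℂ 3 ^ 2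
      - (baseS ℂ 3 ^ 2 - 1512 * baseS ℂ 3 + 177876) * unitInf ℂ 3 + 531441 = 0 := by
  have h0 := symPhi_eval_self (uFo 3 (zetaC 3)) OnePoint.infty
  have hu : uFo 3 (zetaC 3) OnePoint.infty = unitInf ℂ 3 := rfl
  rw [hu] at h0
  have hexp : symPhi (uFo 3 (zetaC 3)) =
      Polynomial.X ^ 4 + Polynomial.C ((symPhi (uFo 3 (zetaC 3))).coeff 3) * Polynomial.X ^ 3 +
        Polynomial.C ((symPhi (uFo 3 (zetaC 3))).coeff 2) * Polynomial.X ^ 2 +
        Polynomial.C ((symPhi (uFo 3 (zetaC 3))).coeff 1) * Polynomial.X +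
        Polynomial.C ((symPhi (uFo 3 (zetaC 3))).coeff 0) := by
    conv_lhs => rw [symPhi_uFo_three, quartic_expand]
    rw [symPhi_uFo_three, (quartic_coeff _ _ _ _).1, (quartic_coeff _ _ _ _).2.1,
      (quartic_coeff _ _ _ _).2.2.1, (quartic_coeff _ _ _ _).2.2.2]
  have e3 : evalAt (baseS ℂ 3) (Polynomial.C (-756)) = -756 := by
    rw [evalAt_C]; norm_num
  have e2 : evalAt (baseS ℂ 3) (Polynomial.C 72 * Polynomial.X + Polynomial.C 19926) =
      72 * baseS ℂ 3 + 19926 := by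
    rw [map_add, map_mul, evalAt_C, evalAt_C, evalAt_X]; norm_num
  have e1 : evalAt (baseS ℂ 3)
      (-(Polynomial.X ^ 2 - Polynomial.C 1512 * Polynomial.X + Polynomial.C 177876)) =
      -(baseS ℂ 3 ^ 2 - 1512 * baseS ℂ 3 + 177876) := by
    rw [map_neg, map_add, map_sub, map_mul, map_pow, evalAt_C, evalAt_C, evalAt_X]; norm_num
  have e0 : evalAt (baseS ℂ 3) (Polynomial.C 531441) = 531441 := by
    rw [evalAt_C]; norm_num
  rw [hexp, psi3_coeff_three, psi3_coeff_two, psi3_coeff_one, psi3_coeff_zero, e3, e2, e1,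
    e0] at h0
  simp only [Polynomial.eval_add, Polynomial.eval_mul, Polynomial.eval_pow, Polynomial.eval_X,
    Polynomial.eval_C] at h0
  linear_combination h0

/-- the unit `3^12 Δ(q³)/Δ(q)` satisfies the quartic -/
theorem unitOne_three_quartic :
    unitOne ℂ 3 ^ 4 - 756 * unitOne ℂ 3 ^ 3 + (72 * jqModC ℂ + 19926) * unitOne ℂ 3 ^ 2
      - (jqModC ℂ ^ 2 - 1512 * jqModC ℂ + 177876) * unitOne ℂ 3 + 531441 = 0 := by
  apply qExpand_injective (R := ℂ) 3
  have h := unitInf_three_quartic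
  rw [unitInf_eq_qExpand_unitOne, baseS] at h
  simpa only [map_add, map_mul, map_pow, map_sub, map_ofNat, map_zero] using h

/-! ### the Hauptmodul of level 3 -/

/-- `∏ (1 - qⁿ)^12` as a Laurent series over `k` -/
def eta12S (k : Type*) [CommRing k] : LaurentSeries k :=
  HahnSeries.ofPowerSeries ℤ k (PowerSeries.map (Int.castRingHom k) eta12)

/-- the inverse of `∏ (1 - qⁿ)^12` as a Laurent series over `k` -/
def eta12InvS (k : Type*) [CommRing k] : LaurentSeries k :=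
  HahnSeries.ofPowerSeries ℤ k (PowerSeries.map (Int.castRingHom k) eta12Inv)

/-- the formal Hauptmodul of level `3`:
`t₃ = (η(z)/η(3z))^12 = q⁻¹ ∏ (1-qⁿ)^12/(1-q^{3n})^12` -/
def t3S (k : Type*) [CommRing k] : LaurentSeries k :=
  HahnSeries.single (-1 : ℤ) (1 : k) * eta12S k * qExpand k 3 (eta12InvS k)

/-- the other Hauptmodul `729 / t₃ = 3⁶ (η(3z)/η(z))^12` -/
def v3S (k : Type*) [CommRing k] : LaurentSeries k :=
  729 * (HahnSeries.single (1 : ℤ) (1 : k) * eta12InvS k * qExpand k 3 (eta12S k))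

section general

variable (k : Type*) [CommRing k]

theorem eta12S_mul_inv : eta12S k * eta12InvS k = 1 := by
  rw [eta12S, eta12InvS, ← map_mul, ← map_mul, eta12_mul_inv, map_one, map_one]

theorem eta12S_sq : eta12S k ^ 2 =
    HahnSeries.ofPowerSeries ℤ k (PowerSeries.map (Int.castRingHom k) dedekindEtaUnit) := by
  rw [eta12S, ← map_pow, ← map_pow, eta12_sq]

theorem eta12InvS_sq : eta12InvS k ^ 2 =
    HahnSeries.ofPowerSeries ℤ k (PowerSeries.map (Int.castRingHom k) dedekindEtaUnitInv) := by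
  rw [eta12InvS, ← map_pow, ← map_pow, eta12Inv_sq]

theorem single_one_mul_single_neg_one :
    HahnSeries.single (1 : ℤ) (1 : k) * HahnSeries.single (-1 : ℤ) (1 : k) = 1 := by
  rw [HahnSeries.single_mul_single]
  simp

theorem t3S_mul_v3S : t3S k * v3S k = 729 := by
  have h1 := eta12S_mul_inv k
  have h2 : qExpand k 3 (eta12S k) * qExpand k 3 (eta12InvS k) = 1 := by
    rw [← map_mul, h1, map_one]
  have h3 := single_one_mul_single_neg_one k
  rw [t3S, v3S]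
  calc HahnSeries.single (-1 : ℤ) (1 : k) * eta12S k * qExpand k 3 (eta12InvS k) *
        (729 * (HahnSeries.single (1 : ℤ) (1 : k) * eta12InvS k * qExpand k 3 (eta12S k)))
      = 729 * (HahnSeries.single (1 : ℤ) (1 : k) * HahnSeries.single (-1 : ℤ) (1 : k)) *
          (eta12S k * eta12InvS k) * (qExpand k 3 (eta12S k) * qExpand k 3 (eta12InvS k)) := by
        ring
    _ = 729 := by rw [h1, h2, h3]; ring

theorem v3S_sq : v3S k ^ 2 = unitOne k 3 := by
  have hd : deltaS k = HahnSeries.single (1 : ℤ) (1 : k) * eta12S k ^ 2 := by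
    rw [eta12S_sq]; rfl
  have hdi : deltaInvS k = HahnSeries.single (-1 : ℤ) (1 : k) * eta12InvS k ^ 2 := by
    rw [eta12InvS_sq]; rfl
  have hs : qExpand k 3 (HahnSeries.single (1 : ℤ) (1 : k)) * HahnSeries.single (-1 : ℤ) (1 : k) =
      HahnSeries.single (1 : ℤ) (1 : k) ^ 2 := by
    rw [qExpand_single, HahnSeries.single_mul_single, HahnSeries.single_pow]
    norm_num
  rw [v3S, unitOne, hd, hdi, map_mul, map_pow]
  calc (729 * (HahnSeries.single (1 : ℤ) (1 : k) * eta12InvS k * qExpand k 3 (eta12S k))) ^ 2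
      = 531441 * HahnSeries.single (1 : ℤ) (1 : k) ^ 2 * eta12InvS k ^ 2 *
          qExpand k 3 (eta12S k) ^ 2 := by ring
    _ = ((3 : ℕ) : LaurentSeries k) ^ 12 *
          (qExpand k 3 (HahnSeries.single (1 : ℤ) (1 : k)) * qExpand k 3 (eta12S k) ^ 2) *
          (HahnSeries.single (-1 : ℤ) (1 : k) * eta12InvS k ^ 2) := by
        rw [← hs]; push_cast; ring

end general

end Fermat.Agent.H17.ESD

/-! ### the modular relation at level 3 -/

namespace Fermat.Agent.H17.ESD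

/-- the power series part of `v₃` -/
def V3 : ℂ⟦X⟧ :=
  729 * PowerSeries.map (Int.castRingHom ℂ) eta12Inv *
    PowerSeries.expand 3 (by norm_num) (PowerSeries.map (Int.castRingHom ℂ) eta12)

theorem constantCoeff_eta12Inv : PowerSeries.constantCoeff eta12Inv = 1 := by
  have h := congrArg (PowerSeries.constantCoeff (R := ℤ)) eta12_mul_inv
  rwa [map_mul, constantCoeff_eta12, one_mul, map_one] at h

theorem constantCoeff_V3 : PowerSeries.constantCoeff V3 = 729 := by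
  have h1 : PowerSeries.constantCoeff (PowerSeries.map (Int.castRingHom ℂ) eta12Inv) = 1 := by
    rw [← PowerSeries.coeff_zero_eq_constantCoeff_apply, PowerSeries.coeff_map,
      PowerSeries.coeff_zero_eq_constantCoeff_apply, constantCoeff_eta12Inv]
    simp
  have h2 : PowerSeries.constantCoeff (PowerSeries.expand 3 (by norm_num)
      (PowerSeries.map (Int.castRingHom ℂ) eta12)) = 1 := by
    have := PowerSeries.coeff_expand_mul 3 (by norm_num)
      (PowerSeries.map (Int.castRingHom ℂ) eta12) 0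
    rw [mul_zero] at this
    rw [← PowerSeries.coeff_zero_eq_constantCoeff_apply, this, PowerSeries.coeff_map,
      PowerSeries.coeff_zero_eq_constantCoeff_apply, constantCoeff_eta12]
    simp
  rw [V3, map_mul, map_mul, h1, h2, map_ofNat]
  norm_num

theorem constantCoeff_Jk : PowerSeries.constantCoeff (Jk ℂ) = 1 := by
  rw [Jk, ← PowerSeries.coeff_zero_eq_constantCoeff_apply, PowerSeries.coeff_map,
    PowerSeries.coeff_zero_eq_constantCoeff_apply, constantCoeff_jNum]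
  simp

theorem v3S_eq : v3S ℂ = tL * HahnSeries.ofPowerSeries ℤ ℂ V3 := by
  rw [v3S, V3, eta12InvS, eta12S, Fermat.Agent.H42.qExpand_ofPowerSeries_eq_expand, map_mul,
    map_mul, map_ofNat]
  ring

theorem jqModC_eq_tL : jqModC ℂ = tL⁻¹ * HahnSeries.ofPowerSeries ℤ ℂ (Jk ℂ) := by
  rw [jqModC_eq, single_eq_tL_zpow, zpow_neg_one]

/-- `(v + 27) (v + 3)³ = j v` for `v = 729 / t₃` over `ℂ` -/
theorem v3S_identity_complex :
    (v3S ℂ + 27) * (v3S ℂ + 3) ^ 3 = jqModC ℂ * v3S ℂ := by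
  have hq := unitOne_three_quartic
  rw [← v3S_sq ℂ] at hq
  -- factorisation of the quartic
  have hfac : ((v3S ℂ) ^ 4 + 270 * (v3S ℂ) ^ 2 + 729 -
        v3S ℂ * (36 * (v3S ℂ) ^ 2 + 756 - jqModC ℂ)) *
      ((v3S ℂ + 27) * (v3S ℂ + 3) ^ 3 - jqModC ℂ * v3S ℂ) = 0 := by
    linear_combination hq
  -- the first factor has constant term `1458`
  have hne : (v3S ℂ) ^ 4 + 270 * (v3S ℂ) ^ 2 + 729 -
        v3S ℂ * (36 * (v3S ℂ) ^ 2 + 756 - jqModC ℂ) ≠ 0 := by
    have hP : (v3S ℂ) ^ 4 + 270 * (v3S ℂ) ^ 2 + 729 -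
        v3S ℂ * (36 * (v3S ℂ) ^ 2 + 756 - jqModC ℂ) =
        HahnSeries.ofPowerSeries ℤ ℂ (X ^ 4 * V3 ^ 4 + 270 * (X ^ 2 * V3 ^ 2) + 729 -
          36 * (X ^ 3 * V3 ^ 3) - 756 * (X * V3) + V3 * Jk ℂ) := by
      rw [v3S_eq, jqModC_eq_tL]
      simp only [map_sub, map_add, map_mul, map_pow, map_ofNat, HahnSeries.ofPowerSeries_X]
      have ht := tL_ne_zero
      field_simp
      ring
    rw [hP]
    intro h0
    have h1 : PowerSeries.constantCoeff (X ^ 4 * V3 ^ 4 + 270 * (X ^ 2 * V3 ^ 2) + 729 -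
          36 * (X ^ 3 * V3 ^ 3) - 756 * (X * V3) + V3 * Jk ℂ) = 0 := by
      rw [← coeff_zero_ofPowerSeries, h0]
      rfl
    simp only [map_sub, map_add, map_mul, map_pow, map_ofNat, PowerSeries.constantCoeff_X,
      constantCoeff_V3, constantCoeff_Jk] at h1
    norm_num at h1
  rcases mul_eq_zero.mp hfac with h | h
  · exact absurd h hne
  · exact sub_eq_zero.mp h

/-- `j t₃³ = (t₃ + 27) (t₃ + 243)³` over `ℂ` -/
theorem t3S_identity_complex :
    jqModC ℂ * t3S ℂ ^ 3 = (t3S ℂ + 27) * (t3S ℂ + 243) ^ 3 := by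
  have h := v3S_identity_complex
  have hm := t3S_mul_v3S ℂ
  have h729 : (729 : LaurentSeries ℂ) ≠ 0 := by
    rw [← map_ofNat (HahnSeries.C : ℂ →+* LaurentSeries ℂ) 729]
    intro h0
    have := HahnSeries.C_injective (h0.trans (map_zero _).symm)
    norm_num at this
  have key : (729 : LaurentSeries ℂ) *
      ((t3S ℂ + 27) * (t3S ℂ + 243) ^ 3 - jqModC ℂ * t3S ℂ ^ 3) = 0 := by
    linear_combination (t3S ℂ) ^ 4 * h -
      ((387420489) + (19131876) * t3S ℂ + (196830) * t3S ℂ ^ 2 + (756) * t3S ℂ ^ 3 +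
        (-1) * t3S ℂ ^ 3 * jqModC ℂ + (531441) * (t3S ℂ * v3S ℂ) +
        (26244) * (t3S ℂ * v3S ℂ) * t3S ℂ + (270) * (t3S ℂ * v3S ℂ) * t3S ℂ ^ 2 +
        (729) * (t3S ℂ * v3S ℂ) ^ 2 + (36) * (t3S ℂ * v3S ℂ) ^ 2 * t3S ℂ +
        (1) * (t3S ℂ * v3S ℂ) ^ 3) * hm
  rcases mul_eq_zero.mp key with h5 | h5
  · exact absurd h5 h729
  · exact (sub_eq_zero.mp h5).symm

theorem coeffMap_eta12S {A B : Type*} [CommRing A] [CommRing B] (φ : A →+* B) :
    coeffMap φ (eta12S A) = eta12S B := by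
  rw [eta12S, coeffMap_ofPowerSeries, Fermat.Agent.H67.powerSeries_map_intCast_map, eta12S]

theorem coeffMap_eta12InvS {A B : Type*} [CommRing A] [CommRing B] (φ : A →+* B) :
    coeffMap φ (eta12InvS A) = eta12InvS B := by
  rw [eta12InvS, coeffMap_ofPowerSeries, Fermat.Agent.H67.powerSeries_map_intCast_map,
    eta12InvS]

theorem coeffMap_t3S {A B : Type*} [CommRing A] [CommRing B] (φ : A →+* B) :
    coeffMap φ (t3S A) = t3S B := by
  rw [t3S, map_mul, map_mul, coeffMap_qExpand, coeffMap_eta12S, coeffMap_eta12InvS,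
    coeffMap_single, map_one, t3S]

/-- `j t₃³ = (t₃ + 27) (t₃ + 243)³` over `ℤ` -/
theorem t3S_identity_int : jqModC ℤ * t3S ℤ ^ 3 = (t3S ℤ + 27) * (t3S ℤ + 243) ^ 3 := by
  apply Fermat.Agent.H57.coeffMap_injective (Int.castRingHom ℂ)
    (RingHom.injective_int (Int.castRingHom ℂ))
  simp only [map_mul, map_pow, map_add, map_ofNat, coeffMap_jqModC, coeffMap_t3S]
  exact t3S_identity_complex

/-- **the modular relation at level 3**: `j t₃³ = (t₃ + 27) (t₃ + 243)³` over every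
commutative ring -/
theorem t3S_identity (k : Type*) [CommRing k] :
    jqModC k * t3S k ^ 3 = (t3S k + 27) * (t3S k + 243) ^ 3 := by
  have h := congrArg (coeffMap (Int.castRingHom k)) t3S_identity_int
  simpa only [map_mul, map_pow, map_add, map_ofNat, coeffMap_jqModC, coeffMap_t3S] using h

end Fermat.Agent.H17.ESD
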