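import Fermat.Agent.H17.ESD.TameT2
import Fermat.Agent.H1.ESD.T3Tame
import Fermat.Agent.H7.ESD.TameUncond

/-!
# P-ES / ES-D-TG: the genus inequality at tame pairs, UNCONDITIONAL (helper17)

* `tameBranch23 : Fermat.Agent.H7.ESD.TameBranch23Statement` (from `tameBranchData_t2`,
  helper17, and `tameBranchData_t3`, helper1);
* `genusFFTame : Fermat.Agent.H27.ESD.GenusFFTameStatement`.
-/

set_option autoImplicit false
set_option synthInstance.maxHeartbeats 400000

noncomputable section

open AlgebraicCurve ModularCurve IntermediateField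

namespace Fermat.Agent.H17.ESD

/-- **ES-D-BR at `ℓ = 2, 3`**: the tame branch data. -/
theorem tameBranch23 : Fermat.Agent.H7.ESD.TameBranch23Statement := by
  intro N _ ℓ _ hℓN h23 A hA _ _
  rcases h23 with ⟨rfl, h2⟩ | ⟨rfl, h3⟩
  · exact tameBranchData_t2 N A h2 hℓN hA
  · exact Fermat.Agent.H1.ESD.tameBranchData_t3 N A hℓN h3 hA

/-- **ES-D-TG**: the genus inequality `g(F_L) ≤ g(F_k)` at tame pairs, unconditional. -/
theorem genusFFTame : Fermat.Agent.H27.ESD.GenusFFTameStatement :=
  Fermat.Agent.H7.ESD.genusFFTame_of_branch23 tameBranch23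

end Fermat.Agent.H17.ESD

end
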